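/-
P5 / S14-B1: conjugation equivariance of the reciprocity isomorphism of a cyclic normal layer.

`G` a group, `A` a `G`-module, `H ⊲ G` a finite cyclic normal subgroup generated by `γ`,
`u ∈ H²(G, A)` with `res_H u = θ_γ(a₀)` (`θ_γ = cycClass`, the explicit cyclic class of
`Coh/CyclicExplicit.lean`).  If `g γ g⁻¹ = γ ^ m` then `g • a₀ ≡ m • a₀` modulo `N_H A`
(`exists_norm_eq_conj_sub_nsmul`): the isomorphism `H ≅ A^H / N_H A` attached to `u` is equivariant
for the conjugation action on `H`, with THIS sign.  If `a₀` generates `A^H / N_H A`, the same holds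
for all `c ∈ A^H` (`exists_norm_eq_conj_sub_nsmul_of_gen`); multiplicative forms at the end.

Ingredients: inner automorphisms act trivially on `H²(G, A)` (`map_conj_eq_self`, explicit
homotopy), conjugation of the explicit class (`map_conjSub_cycClass`), change of generator
`θ_γ = m • θ_{γ^m}` (`cycClass_eq_nsmul_cycClass_pow`), `θ_γ(a) = 0 ↔ a` is a norm.
-/
import Fermat.Agent.Lib.CFT.Coh.ChiClass
import Fermat.Agent.Lib.CFT.Coh.MulRep

set_option autoImplicit false
set_option linter.unusedSectionVars false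
set_option linter.style.haveILetI false

namespace Fermat.Agent.CFT.S14

open CategoryTheory groupCohomology Rep Fermat.Agent.CFT.Coh

noncomputable section

section Conj

variable {k G : Type} [CommRing k] [Group G] (A : Rep.{0} k G)

/-- conjugation `x ↦ g⁻¹ x g` -/
def conjHom (g : G) : G →* G := (MulAut.conj g⁻¹).toMonoidHom

@[simp] theorem conjHom_apply (g x : G) : conjHom g x = g⁻¹ * x * g := by
  change g⁻¹ * x * g⁻¹⁻¹ = _
  rw [inv_inv]

/-- the action of `g` as a morphism `conj_g^* A ⟶ A` -/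
def conjRepHom (g : G) : Rep.res (conjHom g) A ⟶ A :=
  Rep.ofHom ⟨A.ρ g, fun x => by
    ext a
    change A.ρ g (A.ρ (conjHom g x) a) = A.ρ x (A.ρ g a)
    rw [conjHom_apply, ← Module.End.mul_apply, ← map_mul, ← Module.End.mul_apply, ← map_mul]
    congr 2
    group⟩

theorem conjRepHom_apply (g : G) (a : A.V) : (conjRepHom A g).hom a = A.ρ g a := rfl

/-- **inner automorphisms act trivially on `H²`** -/
theorem map_conj_eq_self (g : G) (u : groupCohomology A 2) :
    (map (conjHom g) (conjRepHom A g) 2).hom u = u := by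
  induction u using H2_induction_on with | h f =>
  have h := congrArg (fun φ => φ.hom f) (H2π_comp_map (conjHom g) (conjRepHom A g))
  change (map (conjHom g) (conjRepHom A g) 2).hom (H2π A f) =
    H2π A (mapCocycles₂ (conjHom g) (conjRepHom A g) f) at h
  rw [h, H2π_eq_iff]
  refine ⟨fun x => f (g, g⁻¹ * x * g) - f (x, g), ?_⟩
  funext p
  obtain ⟨x, y⟩ := p
  have hc := (mem_cocycles₂_iff (f : G × G → A.V)).1 f.2
  have h1 := hc x y g
  have h2 := hc x g (g⁻¹ * y * g)
  have h3 := hc g (g⁻¹ * x * g) (g⁻¹ * y * g)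
  have e1 : g * (g⁻¹ * y * g) = y * g := by group
  have e2 : g * (g⁻¹ * x * g) = x * g := by group
  have e3 : g⁻¹ * x * g * (g⁻¹ * y * g) = g⁻¹ * (x * y) * g := by group
  rw [e1] at h2
  rw [e2, e3] at h3
  have hL : (mapCocycles₂ (conjHom g) (conjRepHom A g) f) (x, y) =
      A.ρ g (f (g⁻¹ * x * g, g⁻¹ * y * g)) := by
    change A.ρ g (f (conjHom g x, conjHom g y)) = _
    rw [conjHom_apply, conjHom_apply]
  rw [Pi.sub_apply, hL, d₁₂_hom_apply, map_sub]
  have a1 : A.ρ x (f (y, g)) = f (x * y, g) + f (x, y) - f (x, y * g) := eq_sub_of_add_eq h1.symm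
  have a2 : A.ρ x (f (g, g⁻¹ * y * g)) = f (x * g, g⁻¹ * y * g) + f (x, g) - f (x, y * g) :=
    eq_sub_of_add_eq h2.symm
  have a3 : A.ρ g (f (g⁻¹ * x * g, g⁻¹ * y * g)) =
      f (x * g, g⁻¹ * y * g) + f (g, g⁻¹ * x * g) - f (g, g⁻¹ * (x * y) * g) :=
    eq_sub_of_add_eq h3.symm
  rw [a1, a2, a3]
  abel

end Conj

section Arith

/-- the carry identity behind the change of generator -/
theorem carry_mul_identity (n m a b : ℕ) (hn : 0 < n) (ha : a < n) (hb : b < n) :
    m * (if n ≤ a + b then 1 else 0) + (m * ((a + b) % n)) / n =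
      (if n ≤ (m * a) % n + (m * b) % n then 1 else 0) + (m * a) / n + (m * b) / n := by
  -- `a + b = c + n e`
  obtain ⟨e, he, hc⟩ : ∃ e : ℕ, (if n ≤ a + b then 1 else 0) = e ∧ a + b = (a + b) % n + n * e := by
    rcases add_mod_cases n a b ha hb with ⟨h1, h2⟩ | ⟨h1, h2⟩
    · exact ⟨0, by rw [if_neg (by omega)], by rw [h2]; ring⟩
    · exact ⟨1, by rw [if_pos h1], by rw [h2]; omega⟩
  set c := (a + b) % n with hcdef
  have hrA := Nat.mod_lt (m * a) hn
  have hrB := Nat.mod_lt (m * b) hn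
  obtain ⟨e', he', hc'⟩ : ∃ e' : ℕ, (if n ≤ (m * a) % n + (m * b) % n then 1 else 0) = e' ∧
      (m * a) % n + (m * b) % n = ((m * a) % n + (m * b) % n) % n + n * e' := by
    rcases add_mod_cases n _ _ hrA hrB with ⟨h1, h2⟩ | ⟨h1, h2⟩
    · exact ⟨0, by rw [if_neg (by omega)], by rw [h2]; ring⟩
    · exact ⟨1, by rw [if_pos h1], by rw [h2]; omega⟩
  rw [he, he']
  -- `(m c) % n = ((m a) % n + (m b) % n) % n`
  have hmod : (m * c) % n = ((m * a) % n + (m * b) % n) % n := by
    rw [← Nat.add_mod, ← Nat.mul_add, hc, Nat.mul_add, ← Nat.mul_assoc, Nat.mul_comm m n,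
      Nat.mul_assoc, Nat.add_mul_mod_self_left]
  have hA := Nat.div_add_mod (m * a) n
  have hB := Nat.div_add_mod (m * b) n
  have hC := Nat.div_add_mod (m * c) n
  rw [hmod] at hC
  have key : n * (m * e + m * c / n) = n * (e' + m * a / n + m * b / n) := by
    have h1 : m * a + m * b = m * c + n * (m * e) := by
      rw [← Nat.mul_add, hc]
      ring
    nlinarith [h1, hA, hB, hC, hc']
  exact Nat.eq_of_mul_eq_mul_left hn key

end Arith

section ChangeGen

variable {k Z : Type} [CommRing k] [Group Z] [Finite Z] (B : Rep.{0} k Z) (γ : Z)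
  (hγ : ∀ x, x ∈ Subgroup.zpowers γ)

/-- the logarithm w.r.t. `γ` in terms of the logarithm w.r.t. the generator `γ ^ m` -/
theorem cycLog_eq_mul_cycLog_pow_mod (m : ℕ) (hγm : ∀ x, x ∈ Subgroup.zpowers (γ ^ m)) (x : Z) :
    cycLog γ hγ x = (m * cycLog (γ ^ m) hγm x) % orderOf γ := by
  conv_lhs => rw [← pow_cycLog (γ ^ m) hγm x, ← pow_mul]
  exact cycLog_pow γ hγ _

/-- **change of generator**: `θ_γ(a) = m • θ_{γ^m}(a)` -/
theorem cycClass_eq_nsmul_cycClass_pow (m : ℕ) (hγm : ∀ x, x ∈ Subgroup.zpowers (γ ^ m))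
    (a : B.ρ.invariants) :
    cycClass B γ hγ a = m • cycClass B (γ ^ m) hγm a := by
  have hn : 0 < orderOf γ := orderOf_pos γ
  have hord : orderOf (γ ^ m) = orderOf γ := by
    rw [orderOf_eq_card_of_gen (γ ^ m) hγm, orderOf_eq_card_of_gen γ hγ]
  rw [← map_nsmul, cycClass_apply, cycClass_apply, H2π_eq_iff]
  refine ⟨fun x => -(((m * cycLog (γ ^ m) hγm x) / orderOf γ) • a.1), ?_⟩
  funext p
  obtain ⟨x, y⟩ := p
  have hx := cycLog_lt (γ ^ m) hγm x
  have hy := cycLog_lt (γ ^ m) hγm y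
  rw [hord] at hx hy
  have hcarry := carry_mul_identity (orderOf γ) m _ _ hn hx hy
  have hL : (cycCocycle B γ hγ a) (x, y) =
      (if orderOf γ ≤ (m * cycLog (γ ^ m) hγm x) % orderOf γ +
        (m * cycLog (γ ^ m) hγm y) % orderOf γ then 1 else 0 : ℕ) • a.1 := by
    change cycCocycleFun B γ hγ a.1 (x, y) = _
    rw [cycCocycleFun_apply, cycLog_eq_mul_cycLog_pow_mod γ hγ m hγm x,
      cycLog_eq_mul_cycLog_pow_mod γ hγ m hγm y]
    split_ifs
    · rw [one_smul]
    · rw [zero_smul]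
  have hR : (cycCocycle B (γ ^ m) hγm (m • a)) (x, y) =
      (m * (if orderOf γ ≤ cycLog (γ ^ m) hγm x + cycLog (γ ^ m) hγm y then 1 else 0 : ℕ)) • a.1 := by
    change cycCocycleFun B (γ ^ m) hγm (m • a.1) (x, y) = _
    rw [cycCocycleFun_apply, hord]
    split_ifs
    · rw [mul_one]
    · rw [mul_zero, zero_smul]
  have hρa : ∀ (z : Z) (r : ℕ), B.ρ z (r • a.1) = r • a.1 := fun z r => by
    rw [map_nsmul, a.2 z]
  rw [Pi.sub_apply, hL, hR, d₁₂_hom_apply]
  simp only [map_neg, hρa, cycLog_mul, hord]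
  have e := congrArg (fun r : ℕ => r • a.1) hcarry
  simp only [add_smul] at e
  rw [eq_sub_iff_add_eq]
  -- `e : (m * carry) a + M(xy) a = carry' a + M(x) a + M(y) a`
  have e' : ∀ X Y W U V : B.V, X + Y = W + U + V → -V - -Y + -U + X = W := by
    intro X Y W U V h
    have : W = X + Y - U - V := by rw [h]; abel
    rw [this]; abel
  exact e' _ _ _ _ _ e

end ChangeGen

section Normal

variable {k G : Type} [CommRing k] [Group G] (A : Rep.{0} k G) (H : Subgroup G) [H.Normal]

/-- conjugation `h ↦ g⁻¹ h g` on a normal subgroup -/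
def conjHomSub (g : G) : H →* H := (MulAut.conjNormal g⁻¹ : MulAut H).toMonoidHom

theorem coe_conjHomSub (g : G) (h : H) : ((conjHomSub H g h : H) : G) = g⁻¹ * h * g := by
  change ((MulAut.conjNormal g⁻¹ h : H) : G) = _
  rw [MulAut.conjNormal_apply, inv_inv]

theorem conjHomSub_injective (g : G) : Function.Injective (conjHomSub H g) :=
  (MulAut.conjNormal g⁻¹ : MulAut H).injective

theorem subtype_comp_conjHomSub (g : G) :
    H.subtype.comp (conjHomSub H g) = (conjHom g).comp H.subtype := by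
  ext h
  rw [MonoidHom.comp_apply, MonoidHom.comp_apply, Subgroup.coe_subtype, coe_conjHomSub,
    conjHom_apply]

/-- the conjugate `g γ g⁻¹` in the normal subgroup -/
def conjElt (g : G) (γ : H) : H := (MulAut.conjNormal g : MulAut H) γ

theorem coe_conjElt (g : G) (γ : H) : ((conjElt H g γ : H) : G) = g * γ * g⁻¹ :=
  MulAut.conjNormal_apply g γ

theorem conjHomSub_conjElt (g : G) (γ : H) : conjHomSub H g (conjElt H g γ) = γ := by
  apply Subtype.ext
  rw [coe_conjHomSub, coe_conjElt]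
  group

theorem mem_zpowers_conjElt (g : G) (γ : H) (hγ : ∀ x, x ∈ Subgroup.zpowers γ) (x : H) :
    x ∈ Subgroup.zpowers (conjElt H g γ) := by
  obtain ⟨i, hi⟩ := Subgroup.mem_zpowers_iff.1 (hγ ((MulAut.conjNormal g : MulAut H).symm x))
  refine Subgroup.mem_zpowers_iff.2 ⟨i, ?_⟩
  unfold conjElt
  rw [← map_zpow, hi, MulEquiv.apply_symm_apply]

/-- the action of `g` as a morphism `conj_g^* (A|_H) ⟶ A|_H` -/
def conjRepHomSub (g : G) :
    Rep.res (conjHomSub H g) (Rep.res H.subtype A) ⟶ Rep.res H.subtype A :=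
  Rep.ofHom ⟨A.ρ g, fun x => by
    ext a
    change A.ρ g (A.ρ ((conjHomSub H g x : H) : G) a) = A.ρ (x : G) (A.ρ g a)
    rw [coe_conjHomSub, ← Module.End.mul_apply, ← map_mul, ← Module.End.mul_apply, ← map_mul]
    congr 2
    group⟩

theorem conjRepHomSub_apply (g : G) (a : A.V) : (conjRepHomSub A H g).hom a = A.ρ g a := rfl

/-- restrictions of classes of `G` are invariant under conjugation -/
theorem map_conjSub_res (g : G) (u : groupCohomology A 2) :
    (map (conjHomSub H g) (conjRepHomSub A H g) 2).hom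
        ((map H.subtype (𝟙 (Rep.res H.subtype A)) 2).hom u) =
      (map H.subtype (𝟙 (Rep.res H.subtype A)) 2).hom u := by
  have h1 := map_comp (A := A) (B := Rep.res H.subtype A) (C := Rep.res H.subtype A)
    H.subtype (conjHomSub H g) (𝟙 (Rep.res H.subtype A)) (conjRepHomSub A H g) 2
  have h2 := map_comp (A := A) (B := A) (C := Rep.res H.subtype A)
    (conjHom g) H.subtype (conjRepHom A g) (𝟙 (Rep.res H.subtype A)) 2
  have h3 : map (H.subtype.comp (conjHomSub H g))
      ((resFunctor (conjHomSub H g)).map (𝟙 (Rep.res H.subtype A)) ≫ conjRepHomSub A H g) 2 =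
      map ((conjHom g).comp H.subtype)
        ((resFunctor H.subtype).map (conjRepHom A g) ≫ 𝟙 (Rep.res H.subtype A)) 2 :=
    map_congr (subtype_comp_conjHomSub H g) rfl 2
  rw [h1, h2] at h3
  have h4 := congrArg (fun f => f.hom u) h3
  change (map (conjHomSub H g) (conjRepHomSub A H g) 2).hom
      ((map H.subtype (𝟙 (Rep.res H.subtype A)) 2).hom u) =
    (map H.subtype (𝟙 (Rep.res H.subtype A)) 2).hom
      ((map (conjHom g) (conjRepHom A g) 2).hom u) at h4
  rw [h4, map_conj_eq_self]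

end Normal

section Main

variable {k G : Type} [CommRing k] [Group G] (A : Rep.{0} k G) (H : Subgroup G) [H.Normal]
  [Finite H] (γ : H) (hγ : ∀ x, x ∈ Subgroup.zpowers γ)

/-- `g a` is `H`-invariant if `a` is (`H` normal) -/
def conjInv (g : G) (a : (Rep.res H.subtype A).ρ.invariants) :
    (Rep.res H.subtype A).ρ.invariants :=
  ⟨A.ρ g a.1, fun h => by
    change A.ρ (h : G) (A.ρ g a.1) = A.ρ g a.1
    have h1 : A.ρ ((conjHomSub H g h : H) : G) a.1 = a.1 := a.2 (conjHomSub H g h)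
    rw [coe_conjHomSub] at h1
    conv_rhs => rw [← h1]
    rw [← Module.End.mul_apply, ← map_mul, ← Module.End.mul_apply, ← map_mul]
    congr 2
    group⟩

theorem conjInv_val (g : G) (a : (Rep.res H.subtype A).ρ.invariants) :
    (conjInv A H g a).1 = A.ρ g a.1 := rfl

theorem cycClass_congr {Z : Type} [Group Z] [Finite Z] (B : Rep.{0} k Z) {γ₁ γ₂ : Z} (h : γ₁ = γ₂)
    (h₁ : ∀ x, x ∈ Subgroup.zpowers γ₁) (h₂ : ∀ x, x ∈ Subgroup.zpowers γ₂) :
    cycClass B γ₁ h₁ = cycClass B γ₂ h₂ := by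
  subst h
  rfl

/-- conjugation of the explicit cyclic class -/
theorem map_conjSub_cycClass (g : G) (a : (Rep.res H.subtype A).ρ.invariants) :
    (map (conjHomSub H g) (conjRepHomSub A H g) 2).hom
        (cycClass (Rep.res H.subtype A) γ hγ a) =
      cycClass (Rep.res H.subtype A) (conjElt H g γ) (mem_zpowers_conjElt H g γ hγ)
        (conjInv A H g a) := by
  have h0 : chiClass (Rep.res H.subtype A) (MonoidHom.id H) γ hγ a =
      cycClass (Rep.res H.subtype A) γ hγ a :=
    chiClass_eq_cycClass_of_injective (Rep.res H.subtype A) γ hγ (MonoidHom.id H)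
      Function.injective_id γ hγ 1 (one_dvd _) (by rw [MonoidHom.id_apply, pow_one]) a
  have h1 := map_chiClass (Rep.res H.subtype A) (MonoidHom.id H) γ hγ (conjHomSub H g)
    (conjRepHomSub A H g) a (conjInv A H g a) rfl
  have h2 : chiClass (Rep.res H.subtype A) (conjHomSub H g) γ hγ (conjInv A H g a) =
      cycClass (Rep.res H.subtype A) (conjElt H g γ) (mem_zpowers_conjElt H g γ hγ)
        (conjInv A H g a) :=
    chiClass_eq_cycClass_of_injective (Rep.res H.subtype A) γ hγ (conjHomSub H g)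
      (conjHomSub_injective H g) (conjElt H g γ) (mem_zpowers_conjElt H g γ hγ) 1 (one_dvd _)
      (by rw [conjHomSub_conjElt, pow_one]) (conjInv A H g a)
  rw [← h0, h1, MonoidHom.id_comp, h2]

/-- the norm of `H` as a function on `A` -/
def normH (d : A.V) : A.V := ∑ᶠ h : H, A.ρ (h : G) d

theorem normH_eq_sum [Fintype H] (d : A.V) : normH A H d = ∑ h : H, A.ρ (h : G) d :=
  finsum_eq_sum_of_fintype _

theorem normH_add (d d' : A.V) : normH A H (d + d') = normH A H d + normH A H d' := by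
  letI : Fintype H := Fintype.ofFinite H
  simp only [normH_eq_sum, map_add, Finset.sum_add_distrib]

theorem normH_sub (d d' : A.V) : normH A H (d - d') = normH A H d - normH A H d' := by
  letI : Fintype H := Fintype.ofFinite H
  simp only [normH_eq_sum, map_sub, Finset.sum_sub_distrib]

theorem normH_nsmul (r : ℕ) (d : A.V) : normH A H (r • d) = r • normH A H d := by
  letI : Fintype H := Fintype.ofFinite H
  simp only [normH_eq_sum, map_nsmul, Finset.smul_sum]

/-- `g N_H(d) = N_H(g d)` (`H` normal) -/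
theorem map_normH (g : G) (d : A.V) : A.ρ g (normH A H d) = normH A H (A.ρ g d) := by
  letI : Fintype H := Fintype.ofFinite H
  rw [normH_eq_sum, normH_eq_sum, map_sum]
  refine Fintype.sum_equiv (MulAut.conjNormal g : MulAut H).toEquiv _ _ (fun h => ?_)
  change A.ρ g (A.ρ (h : G) d) = A.ρ (((MulAut.conjNormal g : MulAut H) h : H) : G) (A.ρ g d)
  rw [MulAut.conjNormal_apply, ← Module.End.mul_apply, ← map_mul, ← Module.End.mul_apply, ← map_mul]
  congr 2
  group

/-- **S14-B1 (core)**: if the class `θ_γ(a₀)` is fixed by conjugation by `g` and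
`g γ g⁻¹ = γ ^ m`, then `g a₀ - m a₀` is a norm from `H`. -/
theorem exists_norm_eq_of_map_conjSub_eq (a₀ : (Rep.res H.subtype A).ρ.invariants) (g : G)
    (hfix : (map (conjHomSub H g) (conjRepHomSub A H g) 2).hom
      (cycClass (Rep.res H.subtype A) γ hγ a₀) = cycClass (Rep.res H.subtype A) γ hγ a₀)
    (m : ℕ) (hg : g * (γ : G) * g⁻¹ = (γ : G) ^ m) :
    ∃ d : A.V, A.ρ g a₀.1 - m • a₀.1 = normH A H d := by
  letI : Fintype H := Fintype.ofFinite H
  have hγeq : conjElt H g γ = γ ^ m := by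
    apply Subtype.ext
    rw [coe_conjElt, hg, Subgroup.coe_pow]
  have hγm : ∀ x, x ∈ Subgroup.zpowers (γ ^ m) := by
    rw [← hγeq]
    exact mem_zpowers_conjElt H g γ hγ
  have h1 := hfix
  rw [map_conjSub_cycClass A H γ hγ g a₀,
    cycClass_congr (Rep.res H.subtype A) hγeq (mem_zpowers_conjElt H g γ hγ) hγm] at h1
  -- change of generator
  have h2 := cycClass_eq_nsmul_cycClass_pow (Rep.res H.subtype A) γ hγ m hγm (conjInv A H g a₀)
  rw [h1, ← map_nsmul] at h2
  have h3 : cycClass (Rep.res H.subtype A) γ hγ (conjInv A H g a₀ - m • a₀) = 0 := by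
    rw [map_sub, h2, sub_self]
  obtain ⟨y, hy⟩ := (cycClass_eq_zero_iff (Rep.res H.subtype A) γ hγ _).1 h3
  refine ⟨y, ?_⟩
  rw [normH_eq_sum]
  have h4 : (Rep.res H.subtype A).ρ.norm y = ∑ h : H, A.ρ (h : G) y :=
    norm_apply_eq_sum' (Rep.res H.subtype A) y
  rw [← h4, hy]
  rfl

/-- **S14-B1**, first form: if `res_H u = θ_γ(a₀)` and `g γ g⁻¹ = γ ^ m` then `g a₀ - m a₀` is a
norm from `H`. -/
theorem exists_norm_eq_conj_sub_nsmul (u : groupCohomology A 2)
    (a₀ : (Rep.res H.subtype A).ρ.invariants)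
    (hu : (map H.subtype (𝟙 (Rep.res H.subtype A)) 2).hom u =
      cycClass (Rep.res H.subtype A) γ hγ a₀)
    (g : G) (m : ℕ) (hg : g * (γ : G) * g⁻¹ = (γ : G) ^ m) :
    ∃ d : A.V, A.ρ g a₀.1 - m • a₀.1 = normH A H d := by
  refine exists_norm_eq_of_map_conjSub_eq A H γ hγ a₀ g ?_ m hg
  rw [← hu]
  exact map_conjSub_res A H g u

/-- **S14-B1**: if moreover `a₀` generates `A^H / N_H A`, then `g c ≡ m c` modulo norms for every
`H`-invariant `c`, whenever `g γ g⁻¹ = γ ^ m`. -/
theorem exists_norm_eq_conj_sub_nsmul_of_gen (u : groupCohomology A 2)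
    (a₀ : (Rep.res H.subtype A).ρ.invariants)
    (hu : (map H.subtype (𝟙 (Rep.res H.subtype A)) 2).hom u =
      cycClass (Rep.res H.subtype A) γ hγ a₀)
    (hgen : ∀ c : A.V, (∀ h : H, A.ρ (h : G) c = c) →
      ∃ (r : ℕ) (d : A.V), c = r • a₀.1 + normH A H d)
    (g : G) (m : ℕ) (hg : g * (γ : G) * g⁻¹ = (γ : G) ^ m)
    (c : A.V) (hc : ∀ h : H, A.ρ (h : G) c = c) :
    ∃ d : A.V, A.ρ g c - m • c = normH A H d := by
  obtain ⟨d₀, hd₀⟩ := exists_norm_eq_conj_sub_nsmul A H γ hγ u a₀ hu g m hg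
  obtain ⟨r, d₁, hc1⟩ := hgen c hc
  refine ⟨r • d₀ + (A.ρ g d₁ - m • d₁), ?_⟩
  rw [normH_add, normH_sub, normH_nsmul, normH_nsmul, ← hd₀, ← map_normH, hc1, map_add, map_nsmul,
    smul_add, smul_sub, smul_comm r m]
  abel

end Main

section Shape

variable {k G : Type} [CommRing k] [Group G] [Finite G] (M : Rep.{0} k G)
  (H : Subgroup G) [H.Normal]

/-- **(B1a)** conjugation acts on `M^H / N_H M` through the character by which it acts on `H`:
if every class of `H²(H, M)` is a multiple of the restriction of `u ∈ H²(G, M)`, `H = ⟨h⟩` and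
`g h g⁻¹ = h ^ m`, then `g a ≡ m a` modulo `N_H M` for every `H`-invariant `a`. -/
theorem exists_norm_eq_smul_sub_nsmul
    (h : G) (hh : h ∈ H) (hgen : ∀ x ∈ H, x ∈ Subgroup.zpowers h)
    (u : groupCohomology M 2)
    (hu : ∀ y : groupCohomology (Rep.res H.subtype M) 2, ∃ n : ℤ, y = n • Coh.resClass M u H)
    (g : G) (m : ℕ) (hm : g * h * g⁻¹ = h ^ m)
    (a : M.V) (ha : ∀ x ∈ H, M.ρ x a = a) :
    ∃ b : M.V, M.ρ g a - m • a = ∑ᶠ x : H, M.ρ (x : G) b := by
  have hγ : ∀ x : H, x ∈ Subgroup.zpowers (⟨h, hh⟩ : H) := by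
    intro x
    obtain ⟨i, hi⟩ := Subgroup.mem_zpowers_iff.1 (hgen x.1 x.2)
    refine Subgroup.mem_zpowers_iff.2 ⟨i, Subtype.ext ?_⟩
    rw [Subgroup.coe_zpow]
    exact hi
  set a₀ : (Rep.res H.subtype M).ρ.invariants := ⟨a, fun x => ha x.1 x.2⟩ with ha₀
  obtain ⟨n, hn⟩ := hu (cycClass (Rep.res H.subtype M) (⟨h, hh⟩ : H) hγ a₀)
  have hfix : (map (conjHomSub H g) (conjRepHomSub M H g) 2).hom
      (cycClass (Rep.res H.subtype M) (⟨h, hh⟩ : H) hγ a₀) =
        cycClass (Rep.res H.subtype M) (⟨h, hh⟩ : H) hγ a₀ := by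
    rw [hn, map_zsmul]
    congr 1
    exact map_conjSub_res M H g u
  exact exists_norm_eq_of_map_conjSub_eq M H (⟨h, hh⟩ : H) hγ a₀ g hfix m hm

end Shape

/-! ### Multiplicative form -/

section Mul

variable {G M : Type} [Group G] [CommGroup M] [MulDistribMulAction G M] (H : Subgroup G)
  [H.Normal] [Finite H] (γ : H) (hγ : ∀ x, x ∈ Subgroup.zpowers γ)

/-- an `H`-invariant element of `M` as an invariant of `Rep.ofMulDistribMulAction G M` restricted
to `H` -/
def mulInv (a : M) (ha : ∀ h : H, (h : G) • a = a) :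
    (Rep.res H.subtype (Rep.ofMulDistribMulAction G M)).ρ.invariants :=
  ⟨Additive.ofMul a, fun h => congrArg Additive.ofMul (ha h)⟩

/-- **S14-B1, multiplicative form**: `u ∈ H²(G, M)` with `res_H u = θ_γ(a₀)`, `a₀` generating
`M^H / N_H M`, `g γ g⁻¹ = γ ^ m`: then `g • c / c ^ m` is a norm from `H` for every
`H`-invariant `c`. -/
theorem exists_finprod_smul_eq_smul_div_pow
    (u : groupCohomology (Rep.ofMulDistribMulAction G M) 2) (a₀ : M)
    (ha₀ : ∀ h : H, (h : G) • a₀ = a₀)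
    (hu : (map H.subtype (𝟙 (Rep.res H.subtype (Rep.ofMulDistribMulAction G M))) 2).hom u =
      cycClass (Rep.res H.subtype (Rep.ofMulDistribMulAction G M)) γ hγ (mulInv H a₀ ha₀))
    (hgen : ∀ c : M, (∀ h : H, (h : G) • c = c) →
      ∃ (r : ℕ) (d : M), c = a₀ ^ r * ∏ᶠ h : H, (h : G) • d)
    (g : G) (m : ℕ) (hg : g * (γ : G) * g⁻¹ = (γ : G) ^ m)
    (c : M) (hc : ∀ h : H, (h : G) • c = c) :
    ∃ d : M, g • c / c ^ m = ∏ᶠ h : H, (h : G) • d := by
  have hN : ∀ d : M, normH (Rep.ofMulDistribMulAction G M) H (Additive.ofMul d) =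
      Additive.ofMul (∏ᶠ h : H, (h : G) • d) := fun d => by
    change ∑ᶠ h : H, Additive.ofMul ((h : G) • d) = _
    exact finsum_ofMul_eq (fun h : H => (h : G) • d)
  obtain ⟨d, hd⟩ := exists_norm_eq_conj_sub_nsmul_of_gen (Rep.ofMulDistribMulAction G M) H γ hγ u
    (mulInv H a₀ ha₀) hu
    (fun c' hc' => by
      obtain ⟨r, d, hrd⟩ := hgen (Additive.toMul c') (fun h => congrArg Additive.toMul (hc' h))
      refine ⟨r, Additive.ofMul d, ?_⟩
      rw [hN]
      exact congrArg Additive.ofMul hrd)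
    g m hg (Additive.ofMul c) (fun h => congrArg Additive.ofMul (hc h))
  obtain ⟨d', rfl⟩ : ∃ d' : M, Additive.ofMul d' = d :=
    ⟨Additive.toMul (show Additive M from d), rfl⟩
  refine ⟨d', ?_⟩
  have h2 : Additive.ofMul (g • c / c ^ m) = Additive.ofMul (∏ᶠ h : H, (h : G) • d') :=
    hd.trans (hN d')
  exact Additive.ofMul.injective h2

/-- **(B1a), multiplicative form** consumed by S14-F -/
theorem exists_smul_eq_pow_mul_prod {G M : Type} [Group G] [Finite G] [CommGroup M]
    [MulDistribMulAction G M] (H : Subgroup G) [H.Normal] (h : G) (hh : h ∈ H)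
    (hgen : ∀ x ∈ H, x ∈ Subgroup.zpowers h)
    (u : groupCohomology (Rep.ofMulDistribMulAction G M) 2)
    (hu : ∀ y : groupCohomology (Rep.res H.subtype (Rep.ofMulDistribMulAction G M)) 2,
      ∃ n : ℤ, y = n • Coh.resClass (Rep.ofMulDistribMulAction G M) u H)
    (g : G) (m : ℕ) (hm : g * h * g⁻¹ = h ^ m) (c : M) (hc : ∀ x ∈ H, x • c = c) :
    ∃ d : M, g • c = c ^ m * ∏ᶠ x : H, (x : G) • d := by
  obtain ⟨b, hb⟩ := exists_norm_eq_smul_sub_nsmul (Rep.ofMulDistribMulAction G M) H h hh hgen u hu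
    g m hm (Additive.ofMul c) (fun x hx => congrArg Additive.ofMul (hc x hx))
  obtain ⟨d, rfl⟩ : ∃ d : M, Additive.ofMul d = b :=
    ⟨Additive.toMul (show Additive M from b), rfl⟩
  refine ⟨d, ?_⟩
  have h1 : ∑ᶠ x : H, Additive.ofMul ((x : G) • d) = Additive.ofMul (∏ᶠ x : H, (x : G) • d) :=
    finsum_ofMul_eq (fun x : H => (x : G) • d)
  have h2 : Additive.ofMul (g • c / c ^ m) = Additive.ofMul (∏ᶠ x : H, (x : G) • d) :=
    hb.trans h1
  have h3 := Additive.ofMul.injective h2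
  rw [div_eq_iff_eq_mul, mul_comm] at h3
  exact h3

end Mul

end

end Fermat.Agent.CFT.S14
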