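/-
P5 / S14: a place with trivial stabilizer at an unramified prime has degree one.

For `K / ℚ` Galois with group `Γ`, unramified at `q`, and a place `w` of `K` above `q` with trivial
stabilizer in `Γ`, the residue field of the prime `𝔮_w` of `𝓞 K` below `w` has `q` elements.
-/
import Fermat.Agent.Lib.CFT.Global.Frobenius

set_option autoImplicit false
set_option linter.style.haveILetI false
set_option linter.unusedSectionVars false

open NumberField IsDedekindDomain

open scoped Pointwise

namespace Fermat.Agent.CFT.S14

open Fermat.Agent.CFT.Global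

noncomputable section

variable {q : ℕ} [hq : Fact q.Prime] {K : Type} [Field K] [NumberField K]

variable {Γ : Type} [Group Γ] [Finite Γ] [MulSemiringAction Γ K] [IsGaloisGroup Γ ℚ K]

/-- the residue degree of a prime above an unramified `q` is the order of its stabilizer -/
theorem inertiaDeg_toPrime_eq_card_stabilizer (hunr : UnramifiedAt q K) (w : Place q K) :
    (Place.toPrime w).asIdeal.inertiaDeg ℤ =
      Nat.card (MulAction.stabilizer Γ (Place.toPrime w).asIdeal) := by
  set P := (Place.toPrime w).asIdeal with hP
  have hqP : ((q : ℕ) : 𝓞 K) ∈ P := Place.natCast_mem_toPrime w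
  haveI := Frob.isGaloisGroup_int (L := K) (G := Γ)
  haveI := liesOver_span_natCast_of_mem hqP
  haveI := (isMaximal_span_natCast_int q).isPrime
  have hin := Frob.inertia_eq_bot_of_unramifiedAt (G := Γ) hunr hqP
  rw [Ideal.card_stabilizer_eq_card_inertia_mul_finrank (Ideal.span {((q : ℕ) : ℤ)}) P, hin,
    Subgroup.card_bot, one_mul]

/-- the residue field of a prime above an unramified `q` has `q ^ |Stab|` elements -/
theorem natCard_quotient_toPrime (hunr : UnramifiedAt q K) (w : Place q K) :
    Nat.card (𝓞 K ⧸ (Place.toPrime w).asIdeal) =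
      q ^ Nat.card (MulAction.stabilizer Γ (Place.toPrime w).asIdeal) := by
  haveI := liesOver_span_natCast_of_mem (Place.natCast_mem_toPrime w)
  have h1 := Ideal.absNorm_eq_pow_inertiaDeg' (Place.toPrime w).asIdeal hq.out
  rw [Ideal.inertiaDeg'_eq_inertiaDeg, Ideal.absNorm_apply, Submodule.cardQuot_apply,
    inertiaDeg_toPrime_eq_card_stabilizer (Γ := Γ) hunr w] at h1
  exact h1

/-- **Degree one**: a place with trivial stabilizer above an unramified prime `q` has residue field
with `q` elements. -/
theorem natCard_quotient_toPrime_of_free (hunr : UnramifiedAt q K) (w : Place q K)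
    (hfree : ∀ g : Γ, g • w = w → g = 1) :
    Nat.card (𝓞 K ⧸ (Place.toPrime w).asIdeal) = q := by
  have hstab : MulAction.stabilizer Γ (Place.toPrime w).asIdeal = ⊥ := by
    rw [← Frob.decompGroup_eq_stabilizer]
    ext g
    rw [mem_decompGroup_iff, Subgroup.mem_bot]
    exact ⟨hfree g, fun h => by rw [h, one_smul]⟩
  rw [natCard_quotient_toPrime (Γ := Γ) hunr w, hstab, Subgroup.card_bot, pow_one]

end

end Fermat.Agent.CFT.S14
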