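/-
P5 / S14-B2: the norm classes `N_{L/K} C_S(L) ⊆ C_S(K)` of a Galois extension `L / K` of number
fields, in the idele language of layer C.

* `normCl S K L H` : the subgroup of `C_S(K)` of the classes whose image in `C_S(L)` is a norm;
* `normCl_ne_top` : first inequality (cyclic of odd prime degree, unramified outside `S`);
* `pow_card_mem_normCl` : `C_S(K) / N C_S(L)` has exponent `|H|`;
* `toCS_mem_normCl_of_free` : if all places over `S` split completely the `S`-ideles are norms;
* `normCl_eq_top_of_primeIdele_mem` : `C_S(K)` is generated by the `S`-ideles and the prime ideles.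
-/
import Fermat.Agent.Lib.CFT.Global.NormIndex
import Fermat.Agent.Lib.CFT.Global.PrimeIdele
import Fermat.Agent.Lib.CFT.Global.SecondIneq.LocalNorm
import Fermat.Agent.Lib.CFT.Global.SecondIneq.LargeS

set_option autoImplicit false
set_option linter.style.haveILetI false
set_option linter.unusedSectionVars false

namespace Fermat.Agent.CFT.S14

open Fermat.Agent.CFT.Global Fermat.Agent.CFT.Coh.Herbrand Fermat.Agent.CFT.Local

noncomputable section

section Defs

variable (S : Finset Nat.Primes) (K L : Type) [Field K] [NumberField K] [Field L] [NumberField L]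
  [Algebra K L] (H : Type) [Group H] [Finite H] [MulSemiringAction H L]

/-- `N_{L/K} C_S(L)` inside `C_S(K)`: the classes whose image in `C_S(L)` is a norm. -/
def normCl : Subgroup (CS S K) :=
  ((normProd H : CS S L →* CS S L).range).comap (CS.map S (algebraMap K L))

variable {S K L H}

lemma mem_normCl_iff {c : CS S K} :
    c ∈ normCl S K L H ↔ ∃ d : CS S L, normProd H d = CS.map S (algebraMap K L) c := Iff.rfl

variable [IsGaloisGroup H K L]

/-- `C_S(K) / N C_S(L)` has exponent `|H|`. -/
theorem pow_card_mem_normCl (c : CS S K) : c ^ Nat.card H ∈ normCl S K L H := by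
  refine ⟨CS.map S (algebraMap K L) c, ?_⟩
  rw [normProd_of_forall_smul_eq H (fun g => CS.smul_map_algebraMap g c), map_pow]

/-- classes of norm ideles are norm classes -/
theorem mk_mem_normCl_of_mem_normIdeles {x : FinIdele K} (hx : x ∈ normIdeles K L H) :
    CS.mk S K x ∈ normCl S K L H := by
  obtain ⟨X, hX⟩ := hx
  refine ⟨CS.mk S L X, ?_⟩
  rw [← CS.mk_normProd, hX, CS.map_mk]

end Defs

section FirstIneq

variable {S : Finset Nat.Primes} {K L : Type} [Field K] [NumberField K] [Field L] [NumberField L]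
  [Algebra K L] {H : Type} [Group H] [Finite H] [MulSemiringAction H L] [IsGaloisGroup H K L]
  {p : ℕ} [hp : Fact p.Prime]

/-- **First inequality**: for a cyclic extension of odd prime degree, unramified outside the
nonempty set `S`, the norm classes are a proper subgroup of `C_S(K)`. -/
theorem normCl_ne_top (hp2 : p ≠ 2) (hH : Nat.card H = p) (hS : S.Nonempty)
    (hunr : UnramifiedOutside S L) : normCl S K L H ≠ ⊤ := by
  intro htop
  haveI : Fact (Nat.card H).Prime := ⟨hH ▸ hp.out⟩
  obtain ⟨g₀, hg₀'⟩ := (isCyclic_of_prime_card (α := H) rfl).exists_generator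
  have hg₀ : ∀ g : H, g ∈ Subgroup.zpowers g₀ := hg₀'
  obtain ⟨hdef, hq⟩ := herbrand_CS (L := L) hp2 hH hg₀ K S hS
  have h2 := h0_eq_mul_h1_of_q _ hdef hq
  have h3 : (mulPair (mulActEnd (CS S L) g₀) p
      (mulActEnd_pow_eq_one _ (gen_pow_card hH hg₀))).h0 = 1 := by
    rw [h0_mulPair, Subgroup.relIndex_eq_one]
    intro c hc
    rw [mem_ker_cycDiv_mulActEnd_iff hg₀] at hc
    obtain ⟨c₀, hc₀⟩ := CS.exists_map_eq_of_forall_smul_eq (K := K) hS hunr c hc
    have h4 : c₀ ∈ normCl S K L H := htop ▸ Subgroup.mem_top _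
    obtain ⟨d, hd⟩ := h4
    exact ⟨d, by rw [cycNorm_mulActEnd_eq hH hg₀, hd, hc₀]⟩
  rw [h3] at h2
  have h5 : p ∣ 1 := ⟨_, h2⟩
  exact hp.out.one_lt.ne' (Nat.dvd_one.1 h5)

end FirstIneq

section Split

variable {S : Finset Nat.Primes} {K L : Type} [Field K] [NumberField K] [Field L] [NumberField L]
  [Algebra K L] {H : Type} [Group H] [Finite H] [MulSemiringAction H L] [IsGaloisGroup H K L]

/-- **Split places**: if every place of `L` over `S` has trivial stabilizer in `H`, the `S`-ideles
of `K` are norms from `L`. -/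
theorem toFinIdele_mem_normIdeles_of_free
    (hfree : ∀ q : Nat.Primes, q ∈ S → ∀ w' : Place (q : ℕ) L, ∀ g : H, g • w' = w' → g = 1)
    (y : JS S K) : JS.toFinIdele S K y ∈ normIdeles K L H := by
  classical
  refine mem_normIdeles_of_forall (fun q => ?_) ?_
  · by_cases hq : q ∈ S
    · refine SL.mem_of_forall_projOn_singleton _ _ fun w => ?_
      exact SL.projOn_singleton_mem_normGroup_of_free (G := H) (L := L) w
        (fun w' _ g hg => hfree q hq w' g hg) _
    · rw [JS.comp_toFinIdele_of_notMem _ hq]
      exact one_mem _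
  · refine (Finset.finite_toSet S).subset fun q hq => ?_
    by_contra h
    apply hq
    rw [JS.comp_toFinIdele_of_notMem _ (by simpa using h)]
    exact one_mem _

theorem toCS_mem_normCl_of_free
    (hfree : ∀ q : Nat.Primes, q ∈ S → ∀ w' : Place (q : ℕ) L, ∀ g : H, g • w' = w' → g = 1)
    (y : JS S K) : JS.toCS S K y ∈ normCl S K L H :=
  mk_mem_normCl_of_mem_normIdeles (toFinIdele_mem_normIdeles_of_free hfree y)

end Split

section Generation

variable {S : Finset Nat.Primes} {K : Type} [Field K] [NumberField K]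

/-- a semi-local element at an unramified prime is a unit times a product of prime elements -/
theorem SL.exists_mul_prod_primeOn_mem_unitGroup {q : ℕ} [Fact q.Prime]
    [DecidableEq (Place q K)] [Fintype (Place q K)] (hq : UnramifiedAt q K) (u : (SL q K)ˣ) :
    ∃ n : Place q K → ℤ, u * (∏ w, SL.primeOn {w} ^ n w)⁻¹ ∈ SL.unitGroup q K := by
  refine ⟨fun w => Multiplicative.toAdd (SL.ordAt w u), ?_⟩
  rw [SL.mem_unitGroup_iff_forall_ordAt]
  intro w'
  rw [map_mul, map_inv, map_prod, mul_inv_eq_one]
  have h1 : ∀ w : Place q K, SL.ordAt w' (SL.primeOn {w} ^ Multiplicative.toAdd (SL.ordAt w u))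
      = if w = w' then SL.ordAt w' u else 1 := by
    intro w
    rw [map_zpow, SL.ordAt_eq_ordW_unitsProj, SL.unitsProj_primeOn]
    by_cases hw : w = w'
    · subst hw
      rw [if_pos (Finset.mem_singleton_self w), if_pos rfl, hq.ordW_primeUnit w, ← ofAdd_zsmul,
        smul_eq_mul, mul_one, ofAdd_toAdd]
    · rw [if_neg (by rw [Finset.mem_singleton]; exact fun h => hw h.symm), if_neg hw, map_one,
        one_zpow]
  simp only [h1]
  rw [Finset.prod_ite_eq' Finset.univ w', if_pos (Finset.mem_univ w')]

/-- **Generation**: a subgroup of `C_S(K)` (`K` unramified outside `S`) containing the classes of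
the `S`-ideles and of all prime ideles outside `S` is everything. -/
theorem eq_top_of_primeIdele_mem (hunr : UnramifiedOutside S K) (𝒩 : Subgroup (CS S K))
    (hT : ∀ y : JS S K, JS.toCS S K y ∈ 𝒩)
    (hπ : ∀ q : Nat.Primes, q ∉ S → ∀ (_ : DecidableEq (Place (q : ℕ) K))
      (w : Place (q : ℕ) K), CS.mk S K (primeIdele q {w}) ∈ 𝒩) : 𝒩 = ⊤ := by
  classical
  rw [eq_top_iff]
  rintro c -
  obtain ⟨x, rfl⟩ := CS.mk_surjective S c
  -- ideles which are units outside `S`
  have hunit : ∀ z : FinIdele K,
      (∀ q : Nat.Primes, q ∉ S → FinIdele.comp q z ∈ SL.unitGroup (q : ℕ) K) →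
      CS.mk S K z ∈ 𝒩 := by
    intro z hz
    obtain ⟨u', hu', hzz⟩ := FinIdele.exists_eq_toFinIdele_mul z hz
    have h1 : CS.mk S K u' = 1 := by
      rw [CS.mk_eq_one_iff']
      exact ⟨1, u', hu', by rw [map_one, one_mul]⟩
    rw [hzz, map_mul, h1, mul_one]
    exact hT _
  -- single components outside `S`
  have hsingle : ∀ q : Nat.Primes, q ∉ S → ∀ u : (SL (q : ℕ) K)ˣ,
      CS.mk S K (FinIdele.single q u) ∈ 𝒩 := by
    intro q hq u
    letI : Fintype (Place (q : ℕ) K) := Fintype.ofFinite _
    obtain ⟨n, hn⟩ := SL.exists_mul_prod_primeOn_mem_unitGroup (hunr q hq) u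
    have h1 : FinIdele.single q u = FinIdele.single q (u * (∏ w, SL.primeOn {w} ^ n w)⁻¹)
        * ∏ w, primeIdele q {w} ^ n w := by
      have h2 : ∏ w, primeIdele q {w} ^ n w
          = FinIdele.single q (∏ w, SL.primeOn {w} ^ n w) := by
        rw [map_prod]
        exact Finset.prod_congr rfl fun w _ => (map_zpow _ _ _).symm
      rw [h2, ← map_mul, inv_mul_cancel_right]
    rw [h1, map_mul, map_prod]
    refine mul_mem (hunit _ fun r hr => ?_) (Subgroup.prod_mem _ fun w _ => ?_)
    · by_cases hrq : r = q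
      · subst hrq
        rw [FinIdele.comp_single_same]
        exact hn
      · rw [FinIdele.comp_single_of_ne hrq]
        exact one_mem _
    · rw [map_zpow]
      exact Subgroup.zpow_mem _ (hπ q hq _ w) _
  -- the general case
  set B : Finset Nat.Primes := x.finite_notMem_unitGroup.toFinset.filter (· ∉ S) with hB
  have hBS : ∀ q ∈ B, q ∉ S := fun q hq => (Finset.mem_filter.1 hq).2
  have hBmem : ∀ q : Nat.Primes, q ∉ S → q ∉ B →
      FinIdele.comp q x ∈ SL.unitGroup (q : ℕ) K := by
    intro q hq hqB
    by_contra h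
    exact hqB (Finset.mem_filter.2 ⟨(Set.Finite.mem_toFinset _).2 h, hq⟩)
  set Z : FinIdele K := ∏ q ∈ B, FinIdele.single q (FinIdele.comp q x) with hZ
  have hZcomp : ∀ r : Nat.Primes, FinIdele.comp r Z = if r ∈ B then FinIdele.comp r x else 1 := by
    intro r
    rw [hZ, map_prod]
    by_cases hr : r ∈ B
    · rw [if_pos hr, Finset.prod_eq_single r]
      · exact FinIdele.comp_single_same r _
      · intro q _ hqr
        exact FinIdele.comp_single_of_ne (fun h => hqr h.symm) _
      · intro h
        exact absurd hr h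
    · rw [if_neg hr]
      refine Finset.prod_eq_one fun q hq => ?_
      exact FinIdele.comp_single_of_ne (fun h => hr (by rw [h]; exact hq)) _
  have hx : x = (x * Z⁻¹) * Z := by rw [inv_mul_cancel_right]
  rw [hx, map_mul]
  refine mul_mem (hunit _ fun q hq => ?_) ?_
  · rw [map_mul, map_inv, hZcomp]
    by_cases hqB : q ∈ B
    · rw [if_pos hqB, mul_inv_cancel]
      exact one_mem _
    · rw [if_neg hqB, inv_one, mul_one]
      exact hBmem q hq hqB
  · rw [hZ, map_prod]
    exact Subgroup.prod_mem _ fun q hq => hsingle q (hBS q hq) _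

end Generation

end

end Fermat.Agent.CFT.S14
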