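/-
P5 / S14-B2-5: the ideal -> idele dictionary for principal products of unramified primes.

If `(J) = ∏ i ∈ s, 𝔮_{w i}` in `𝓞 K` for places `w i` of `K` above a prime `q ∉ S` unramified in
`K`, then the product of the classes of the prime ideles `primeIdele q {w i}` in `C_S(K)` is the
class of an `S`-idele (namely of `J⁻¹` at the places of `S`).
-/
import Fermat.Agent.Lib.CFT.S14.NormClasses
import Fermat.Agent.Lib.CFT.Global.IdeleIdeal

set_option autoImplicit false
set_option linter.style.haveILetI false
set_option linter.unusedSectionVars false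

open scoped NumberField nonZeroDivisors

open IsDedekindDomain

namespace Fermat.Agent.CFT.S14

open Fermat.Agent.CFT.Global Fermat.Agent.CFT.Local

noncomputable section

variable {K : Type} [Field K] [NumberField K]

/-- the valuation of a prime idele `primeIdele q {w}` (`q` unramified) at the prime below a place
`w'` above a prime `r`: it is `1` at `w' = w` (in particular `r = q`) and `0` elsewhere -/
theorem ordAtPrime_toPrime_primeIdele {q r : Nat.Primes} [DecidableEq (Place (q : ℕ) K)]
    (hunr : UnramifiedAt (q : ℕ) K) (w : Place (q : ℕ) K)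
    (w' : Place (r : ℕ) K) [Decidable (Place.toPrime w' = Place.toPrime w)] :
    FinIdele.ordAtPrime (Place.toPrime w') (primeIdele q {w}) =
      if Place.toPrime w' = Place.toPrime w then Multiplicative.ofAdd (1 : ℤ) else 1 := by
  rw [FinIdele.ordAtPrime_toPrime]
  by_cases hrq : r = q
  · subst hrq
    rw [primeIdele, FinIdele.comp_single_same, SL.ordAt_eq_ordW_unitsProj, SL.unitsProj_primeOn]
    by_cases hw : w' = w
    · subst hw
      rw [if_pos (Finset.mem_singleton_self w'), if_pos rfl, hunr.ordW_primeUnit]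
    · rw [if_neg (by rw [Finset.mem_singleton]; exact hw),
        if_neg (fun h => hw (Place.toPrime_injective h)), map_one]
  · rw [primeIdele, FinIdele.comp_single_of_ne hrq, map_one, if_neg]
    intro h
    exact hrq (natPrime_unique (Place.toPrime w') (Place.natCast_mem_toPrime w')
      (h ▸ Place.natCast_mem_toPrime w))

open scoped Classical in
/-- the valuation of a prime idele at an arbitrary prime of `𝓞 K` -/
theorem ordAtPrime_primeIdele {q : Nat.Primes}
    (hunr : UnramifiedAt (q : ℕ) K) (w : Place (q : ℕ) K) (v : HeightOneSpectrum (𝓞 K)) :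
    FinIdele.ordAtPrime v (primeIdele q {w}) =
      if v = Place.toPrime w then Multiplicative.ofAdd (1 : ℤ) else 1 := by
  have h := ordAtPrime_toPrime_primeIdele hunr w (placeOfPrime v)
  rw [toPrime_placeOfPrime] at h
  exact h

open scoped Classical in
/-- the valuations of a generator of a product of primes -/
theorem primeOrd_of_span_eq_prod {ι : Type} (s : Finset ι) (P : ι → HeightOneSpectrum (𝓞 K))
    (a : Kˣ) (J : 𝓞 K) (ha : (a : K) = algebraMap (𝓞 K) K J)
    (h : Ideal.span {J} = ∏ i ∈ s, (P i).asIdeal) (v : HeightOneSpectrum (𝓞 K)) :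
    primeOrd v a = ∑ i ∈ s, if v = P i then (1 : ℤ) else 0 := by
  rw [← count_spanSingleton, ha, ← FractionalIdeal.coeIdeal_span_singleton, h,
    ← FractionalIdeal.coeIdealHom_apply, map_prod, FractionalIdeal.count_prod]
  · refine Finset.sum_congr rfl fun i _ => ?_
    rw [FractionalIdeal.coeIdealHom_apply, FractionalIdeal.count_maximal]
    by_cases hv : v = P i
    · rw [if_pos hv, if_pos hv.symm]
    · rw [if_neg hv, if_neg (fun h' => hv h'.symm)]
  · intro i _
    rw [FractionalIdeal.coeIdealHom_apply]
    exact FractionalIdeal.coeIdeal_ne_zero.mpr (P i).ne_bot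

variable (S : Finset Nat.Primes)

open scoped Classical in
/-- **(B2-5)** a principal product of primes over an unramified `q ∉ S` is, in `C_S(K)`, the class
of an `S`-idele. -/
theorem CS.prod_primeIdele_eq_toCS_of_span_eq (q : Nat.Primes) (_hq : q ∉ S)
    (hunr : UnramifiedAt (q : ℕ) K) {ι : Type} (s : Finset ι) (w : ι → Place (q : ℕ) K)
    (J : 𝓞 K) (hJ : J ≠ 0)
    (h : Ideal.span {J} = ∏ i ∈ s, (Place.toPrime (w i)).asIdeal) :
    ∃ y : JS S K, ∏ i ∈ s, CS.mk S K (primeIdele q {w i}) = CS.mk S K (JS.toFinIdele S K y) := by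
  have hJ' : algebraMap (𝓞 K) K J ≠ 0 := by
    rwa [Ne, FaithfulSMul.algebraMap_eq_zero_iff]
  set a : Kˣ := Units.mk0 (algebraMap (𝓞 K) K J) hJ' with ha
  set x : FinIdele K := (FinIdele.princ K a)⁻¹ * ∏ i ∈ s, primeIdele q {w i} with hx
  -- all valuations of `x` vanish
  have hord : ∀ v : HeightOneSpectrum (𝓞 K), FinIdele.ordAtPrime v x = 1 := by
    intro v
    rw [hx, map_mul, map_inv, map_prod, FinIdele.ordAtPrime_princ,
      primeOrd_of_span_eq_prod s (fun i => Place.toPrime (w i)) a J rfl h v, inv_mul_eq_one]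
    simp only [ordAtPrime_primeIdele hunr]
    rw [ofAdd_sum]
    refine Finset.prod_congr rfl fun i _ => ?_
    by_cases hv : v = Place.toPrime (w i)
    · rw [if_pos hv, if_pos hv]
    · rw [if_neg hv, if_neg hv, ofAdd_zero]
  have hz : ∀ r : Nat.Primes, r ∉ S → FinIdele.comp r x ∈ SL.unitGroup (r : ℕ) K := by
    intro r _
    rw [FinIdele.comp_mem_unitGroup_iff]
    exact fun v _ => hord v
  obtain ⟨u', hu', hxu⟩ := FinIdele.exists_eq_toFinIdele_mul (S := S) x hz
  refine ⟨FinIdele.partS S K x, ?_⟩
  have h1 : CS.mk S K u' = 1 := by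
    rw [CS.mk_eq_one_iff']
    exact ⟨1, u', hu', by rw [map_one, one_mul]⟩
  have h2 : CS.mk S K (FinIdele.princ K a) = 1 := by
    rw [CS.mk_eq_one_iff']
    exact ⟨a, 1, one_mem _, by rw [mul_one]⟩
  have h3 : CS.mk S K x = ∏ i ∈ s, CS.mk S K (primeIdele q {w i}) := by
    rw [hx, map_mul, map_inv, h2, inv_one, one_mul, map_prod]
  rw [← h3]
  conv_lhs => rw [hxu]
  rw [map_mul, h1, mul_one]

end

end Fermat.Agent.CFT.S14
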