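/-
P4 / S14, layer F, piece F1: the Stickelberger relation for Jacobi sums at primes of degree one.

`K` a number field of degree `p - 1` with a primitive `p`-th root of unity `ζ ∈ 𝓞 K`, `σ t` ring
automorphisms of `𝓞 K` with `σ t ζ = ζ ^ t` (`0 < t < p`), `𝔮` a maximal ideal of `𝓞 K` with residue
field of prime order `q ≠ p`.  Then the ideal `∏_{1 ≤ t ≤ (p-1)/2} (σ t)⁻¹(𝔮)` is principal, generated
by a Jacobi sum `J(χ, χ)` (`exists_span_singleton_eq_prod_comap`).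
-/
import Mathlib

set_option autoImplicit false
set_option linter.unusedSectionVars false
set_option linter.style.haveILetI false

open scoped NumberField

namespace Fermat.Agent.CFT.S14

noncomputable section

/-! ### A power sum over a finite field -/

section FiniteField

variable {k : Type*} [Field k] [Fintype k]

/-- `∑_{x ∈ k} x^a (1 - x)^b = 0` for `a + b < |k| - 1` -/
theorem sum_pow_mul_one_sub_pow_eq_zero (a b : ℕ) (hab : a + b < Fintype.card k - 1) :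
    ∑ x : k, x ^ a * (1 - x) ^ b = 0 := by
  have h1 : ∀ x : k, x ^ a * (1 - x) ^ b =
      ∑ j ∈ Finset.range (b + 1), ((-1) ^ j * (b.choose j : k)) * x ^ (a + j) := by
    intro x
    rw [sub_eq_neg_add, add_pow, Finset.mul_sum]
    refine Finset.sum_congr rfl (fun j _ => ?_)
    rw [one_pow, mul_one, neg_pow, pow_add]
    ring
  simp_rw [h1]
  rw [Finset.sum_comm]
  refine Finset.sum_eq_zero (fun j hj => ?_)
  rw [← Finset.mul_sum, FiniteField.sum_pow_lt_card_sub_one k (a + j) ?_, mul_zero]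
  have := Finset.mem_range.1 hj
  omega

end FiniteField

/-! ### Reduction of roots of unity -/

section Reduction

variable {p : ℕ} [hp : Fact p.Prime] {R : Type*} [CommRing R] [IsDomain R] {ζ : R}
  (hζ : IsPrimitiveRoot ζ p) {k : Type*} [Field k] (red : R →+* k)

include hζ in
/-- the reduction of a primitive `p`-th root of unity is primitive if `p ≠ 0` in the residue
field -/
theorem isPrimitiveRoot_red (hpk : (p : k) ≠ 0) : IsPrimitiveRoot (red ζ) p := by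
  have h1 : red ζ ^ p = 1 := by rw [← map_pow, hζ.pow_eq_one, map_one]
  have h2 : red ζ ≠ 1 := by
    intro h
    apply hpk
    have h3 := congrArg red (hζ.geom_sum_eq_zero hp.out.one_lt)
    rw [map_sum, map_zero] at h3
    simp only [map_pow, h, one_pow, Finset.sum_const, Finset.card_range, nsmul_eq_mul,
      mul_one] at h3
    exact h3
  have h3 := orderOf_eq_prime h1 h2
  rw [← h3]
  exact IsPrimitiveRoot.orderOf _

include hζ in
theorem red_pow_injOn (hpk : (p : k) ≠ 0) {i j : ℕ} (hi : i < p) (hj : j < p)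
    (h : red (ζ ^ i) = red (ζ ^ j)) : i = j := by
  rw [map_pow, map_pow] at h
  exact (isPrimitiveRoot_red hζ red hpk).pow_inj hi hj h

include hζ red in
/-- `p` divides `|k| - 1` -/
theorem dvd_card_sub_one [Fintype k] (hpk : (p : k) ≠ 0) : p ∣ Fintype.card k - 1 := by
  have h1 := isPrimitiveRoot_red hζ red hpk
  have h2 : red ζ ^ (Fintype.card k - 1) = 1 :=
    FiniteField.pow_card_sub_one_eq_one _ (h1.ne_zero hp.out.ne_zero)
  exact h1.dvd_of_pow_eq_one _ h2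

include hζ in
/-- **the `p`-th power residue character**: a multiplicative character `χ : k → R` with values in
`μ_p ∪ {0}` such that `χ x ≡ x ^ ((|k| - 1) / p)` modulo the kernel of the reduction map -/
theorem exists_mulChar_red [Fintype k] [DecidableEq k] (hpk : (p : k) ≠ 0) :
    ∃ χ : MulChar k R, (∀ x : k, red (χ x) = x ^ ((Fintype.card k - 1) / p)) ∧
      (∀ x : k, x ≠ 0 → ∃ i < p, χ x = ζ ^ i) := by
  haveI : NeZero p := ⟨hp.out.ne_zero⟩
  obtain ⟨m, hm⟩ := dvd_card_sub_one hζ red hpk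
  have hm' : (Fintype.card k - 1) / p = m := by
    rw [hm, Nat.mul_div_cancel_left _ hp.out.pos]
  rw [hm']
  have hcardU : Fintype.card kˣ = p * m := by rw [Fintype.card_units, hm]
  obtain ⟨g, hg⟩ := IsCyclic.exists_generator (α := kˣ)
  have hgm : ((g : k) ^ m) ^ p = 1 := by
    rw [← pow_mul, mul_comm, ← hm]
    exact FiniteField.pow_card_sub_one_eq_one _ g.ne_zero
  obtain ⟨i, -, hi⟩ := (isPrimitiveRoot_red hζ red hpk).eq_pow_of_pow_eq_one hgm
  -- the unit `ζ ^ i` of `R`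
  have hζi : (ζ ^ i) ^ p = 1 := by rw [← pow_mul, mul_comm, pow_mul, hζ.pow_eq_one, one_pow]
  let ζ₀ : Rˣ := Units.ofPowEqOne (ζ ^ i) p hζi hp.out.ne_zero
  have hζ₀ : (ζ₀ : R) = ζ ^ i := rfl
  have hζ₀mem : ζ₀ ∈ rootsOfUnity (Fintype.card kˣ) R := by
    rw [mem_rootsOfUnity, hcardU, pow_mul]
    have : ζ₀ ^ p = 1 := Units.ext (by rw [Units.val_pow_eq_pow_val, hζ₀, hζi]; rfl)
    rw [this, one_pow]
  refine ⟨MulChar.ofRootOfUnity hζ₀mem hg, ?_, ?_⟩
  · intro x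
    by_cases hx : x = 0
    · subst hx
      have hm0 : m ≠ 0 := by
        rintro rfl
        rw [mul_zero] at hcardU
        exact Fintype.card_ne_zero hcardU
      rw [MulChar.map_zero, map_zero, zero_pow hm0]
    · obtain ⟨n, hn⟩ := (Subgroup.mem_zpowers_iff).1 (hg (Units.mk0 x hx))
      obtain ⟨n', hn'⟩ : ∃ n' : ℕ, g ^ n' = Units.mk0 x hx := by
        have hfin : IsOfFinOrder g := isOfFinOrder_of_finite g
        have := (hfin.mem_powers_iff_mem_zpowers).2 ⟨n, hn⟩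
        exact this
      have hx' : x = (g : k) ^ n' := by
        have := congrArg Units.val hn'
        rw [Units.val_pow_eq_pow_val, Units.val_mk0] at this
        exact this.symm
      have h1 : MulChar.ofRootOfUnity hζ₀mem hg x = (ζ₀ : R) ^ n' := by
        rw [hx', map_pow, MulChar.ofRootOfUnity_spec]
      rw [h1, hζ₀, map_pow, map_pow, hi, hx', ← pow_mul, ← pow_mul, mul_comm]
  · intro x hx
    obtain ⟨n, hn⟩ := (Subgroup.mem_zpowers_iff).1 (hg (Units.mk0 x hx))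
    obtain ⟨n', hn'⟩ : ∃ n' : ℕ, g ^ n' = Units.mk0 x hx := by
      have hfin : IsOfFinOrder g := isOfFinOrder_of_finite g
      have := (hfin.mem_powers_iff_mem_zpowers).2 ⟨n, hn⟩
      exact this
    have hx' : x = (g : k) ^ n' := by
      have := congrArg Units.val hn'
      rw [Units.val_pow_eq_pow_val, Units.val_mk0] at this
      exact this.symm
    have h1 : MulChar.ofRootOfUnity hζ₀mem hg x = (ζ₀ : R) ^ n' := by
      rw [hx', map_pow, MulChar.ofRootOfUnity_spec]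
    refine ⟨(i * n') % p, Nat.mod_lt _ hp.out.pos, ?_⟩
    rw [h1, hζ₀, ← pow_mul]
    conv_rhs => rw [hζ.eq_orderOf, pow_mod_orderOf]

end Reduction

/-! ### Residue fields of prime order -/

section PrimeField

variable {k : Type*} [Field k] [Fintype k] {q : ℕ} (hq : q.Prime) (hcard : Fintype.card k = q)

include hq hcard in
theorem natCast_ne_zero_of_prime_ne {p : ℕ} (hp : p.Prime) (hqp : q ≠ p) : (p : k) ≠ 0 := by
  intro h
  have h1 : ringChar k ∣ p := ringChar.dvd h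
  have h2 : ringChar k ∣ q := ringChar.dvd (hcard ▸ Nat.cast_card_eq_zero k)
  have h3 : ringChar k = 1 := by
    have := Nat.dvd_gcd h2 h1
    rwa [(Nat.coprime_primes hq hp).2 hqp, Nat.dvd_one] at this
  exact CharP.ringChar_ne_one h3

include hq hcard in
theorem exists_intCast_eq (y : k) : ∃ a : ℤ, (a : k) = y := by
  haveI : Fact q.Prime := ⟨hq⟩
  have h1 : Nat.card k = q := by rw [Nat.card_eq_fintype_card, hcard]
  obtain ⟨a, ha⟩ := AddSubgroup.mem_zmultiples_iff.1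
    (mem_zmultiples_of_prime_card h1 (g := (1 : k)) (g' := y) one_ne_zero)
  exact ⟨a, by rw [← ha, zsmul_eq_mul, mul_one]⟩

end PrimeField

/-! ### The Stickelberger relation for Jacobi sums -/

section Main

variable {p : ℕ} [hp : Fact p.Prime] {K : Type*} [Field K] [NumberField K]
  {ζ : 𝓞 K} (hζ : IsPrimitiveRoot ζ p)
  (σ : ℕ → (𝓞 K ≃+* 𝓞 K)) (hσ : ∀ t, 0 < t → t < p → σ t ζ = ζ ^ t)
  (𝔮 : Ideal (𝓞 K)) {k : Type*} [Field k] [Fintype k] [DecidableEq k] (red : 𝓞 K →+* k)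
  (hred : ∀ x, red x = 0 ↔ x ∈ 𝔮) {q : ℕ} (hq : q.Prime) (hqp : q ≠ p)
  (hcard : Fintype.card k = q)

include hζ hσ hred hq hqp hcard in
/-- distinct exponents give distinct conjugates of `𝔮` -/
theorem comap_ne_comap {t t' : ℕ} (ht : 0 < t) (htp : t < p) (ht' : 0 < t') (htp' : t' < p)
    (hne : t ≠ t') :
    𝔮.comap (σ t : 𝓞 K →+* 𝓞 K) ≠ 𝔮.comap (σ t' : 𝓞 K →+* 𝓞 K) := by
  intro h
  apply hne
  have hpk : (p : k) ≠ 0 := natCast_ne_zero_of_prime_ne hq hcard hp.out hqp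
  obtain ⟨a, ha⟩ := exists_intCast_eq hq hcard (red (ζ ^ t))
  have h1 : ζ - (a : 𝓞 K) ∈ 𝔮.comap (σ t : 𝓞 K →+* 𝓞 K) := by
    rw [Ideal.mem_comap, RingEquiv.coe_toRingHom, map_sub, map_intCast, hσ t ht htp,
      ← hred, map_sub, map_intCast, ha, sub_self]
  rw [h, Ideal.mem_comap, RingEquiv.coe_toRingHom, map_sub, map_intCast, hσ t' ht' htp',
    ← hred, map_sub, map_intCast, ha, sub_eq_zero] at h1
  exact (red_pow_injOn hζ red hpk htp' htp h1).symm

variable (χ : MulChar k (𝓞 K))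
  (hχ1 : ∀ x : k, red (χ x) = x ^ ((Fintype.card k - 1) / p))
  (hχ2 : ∀ x : k, x ≠ 0 → ∃ i < p, χ x = ζ ^ i)

include hζ hσ hq hqp hcard hχ1 hχ2 in
/-- the reduction of a conjugate of a power of `χ` -/
theorem red_σ_pow_apply {e t r : ℕ} (he : 0 < e) (ht : 0 < t) (htp : t < p)
    (hr : (e * t) % p = r) (hr0 : 0 < r) (x : k) :
    red (σ t ((χ ^ e) x)) = x ^ ((Fintype.card k - 1) / p * r) := by
  have hpk : (p : k) ≠ 0 := natCast_ne_zero_of_prime_ne hq hcard hp.out hqp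
  obtain ⟨m, hm⟩ := dvd_card_sub_one hζ red hpk
  have hm' : (Fintype.card k - 1) / p = m := by
    rw [hm, Nat.mul_div_cancel_left _ hp.out.pos]
  rw [hm'] at hχ1 ⊢
  have hm0 : m ≠ 0 := by
    rintro rfl
    have h1 : 1 < Fintype.card k := Fintype.one_lt_card
    omega
  rw [MulChar.pow_apply' χ he.ne']
  by_cases hx : x = 0
  · subst hx
    rw [MulChar.map_zero, zero_pow he.ne', map_zero, map_zero,
      zero_pow (Nat.mul_ne_zero hm0 hr0.ne')]
  · obtain ⟨i, -, hi⟩ := hχ2 x hx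
    have h1 : σ t (χ x ^ e) = χ x ^ (e * t) := by
      rw [hi, map_pow, map_pow, hσ t ht htp, ← pow_mul, ← pow_mul, ← pow_mul]
      congr 1
      ring
    have h2 : x ^ (m * p) = 1 := by
      rw [mul_comm, ← hm]
      exact FiniteField.pow_card_sub_one_eq_one x hx
    rw [h1, map_pow, hχ1, ← pow_mul]
    conv_lhs => rw [← Nat.div_add_mod (e * t) p, hr, mul_add, pow_add, ← mul_assoc, pow_mul, h2,
      one_pow, one_mul]

include hζ hσ hred hq hqp hcard hχ1 hχ2 in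
/-- **the Jacobi sum congruence**: `σ_t J(χ^e, χ^e) ∈ 𝔮` if `(e t mod p) < p / 2` -/
theorem σ_jacobiSum_pow_mem {e t r : ℕ} (he : 0 < e) (ht : 0 < t) (htp : t < p)
    (hr : (e * t) % p = r) (hr0 : 0 < r) (hr2 : 2 * r < p) :
    σ t (jacobiSum (χ ^ e) (χ ^ e)) ∈ 𝔮 := by
  have hpk : (p : k) ≠ 0 := natCast_ne_zero_of_prime_ne hq hcard hp.out hqp
  obtain ⟨m, hm⟩ := dvd_card_sub_one hζ red hpk
  have hm' : (Fintype.card k - 1) / p = m := by
    rw [hm, Nat.mul_div_cancel_left _ hp.out.pos]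
  rw [← hred, jacobiSum, map_sum, map_sum]
  simp only [map_mul]
  simp_rw [red_σ_pow_apply hζ σ hσ red hq hqp hcard χ hχ1 hχ2 he ht htp hr hr0]
  apply sum_pow_mul_one_sub_pow_eq_zero
  rw [hm', hm]
  have hm0 : 0 < m := by
    rcases Nat.eq_zero_or_pos m with rfl | h
    · have h1 : 1 < Fintype.card k := Fintype.one_lt_card
      omega
    · exact h
  have : m * r + m * r < p * m := by nlinarith
  exact this

include hζ hq hqp hcard hχ1 hχ2 in
/-- `χ` has order `p` -/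
theorem mulChar_pow_eq_one : χ ^ p = 1 := by
  ext a
  rw [MulChar.pow_apply_coe, MulChar.one_apply_coe]
  obtain ⟨i, -, hi⟩ := hχ2 a a.ne_zero
  rw [hi, ← pow_mul, mul_comm, pow_mul, hζ.pow_eq_one, one_pow]

include hζ hq hqp hcard hχ1 hχ2 in
/-- a generator of `kˣ` on which `χ` is non-trivial -/
theorem exists_apply_ne_one : ∃ g : kˣ, χ g ≠ 1 := by
  have hpk : (p : k) ≠ 0 := natCast_ne_zero_of_prime_ne hq hcard hp.out hqp
  obtain ⟨m, hm⟩ := dvd_card_sub_one hζ red hpk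
  have hm' : (Fintype.card k - 1) / p = m := by
    rw [hm, Nat.mul_div_cancel_left _ hp.out.pos]
  rw [hm'] at hχ1
  obtain ⟨g, hg⟩ := IsCyclic.exists_generator (α := kˣ)
  refine ⟨g, fun h => ?_⟩
  have h1 : (g : k) ^ m = 1 := by rw [← hχ1, h, map_one]
  have h2 : g ^ m = 1 := Units.ext (by rw [Units.val_pow_eq_pow_val, h1]; rfl)
  have h3 : orderOf g = Fintype.card kˣ := by
    rw [← Nat.card_eq_fintype_card]
    exact orderOf_eq_card_of_forall_mem_zpowers hg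
  have h4 : Fintype.card kˣ ∣ m := h3 ▸ orderOf_dvd_of_pow_eq_one h2
  rw [Fintype.card_units, hm] at h4
  have hm0 : 0 < m := by
    rcases Nat.eq_zero_or_pos m with rfl | h
    · have h1 : 1 < Fintype.card k := Fintype.one_lt_card
      omega
    · exact h
  have h5 := Nat.le_of_dvd hm0 h4
  have h6 : 2 ≤ p := hp.out.two_le
  nlinarith

include hζ hq hqp hcard hχ1 hχ2 in
/-- **`J(χ,χ) · J(χ⁻¹,χ⁻¹) = q`** -/
theorem jacobiSum_mul_jacobiSum_pow (hp2 : p ≠ 2) :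
    jacobiSum χ χ * jacobiSum (χ ^ (p - 1)) (χ ^ (p - 1)) = (q : 𝓞 K) := by
  have hpow := mulChar_pow_eq_one hζ red hq hqp hcard χ hχ1 hχ2
  obtain ⟨g, hg⟩ := exists_apply_ne_one hζ red hq hqp hcard χ hχ1 hχ2
  have hinv : χ⁻¹ = χ ^ (p - 1) := by
    rw [inv_eq_iff_mul_eq_one, ← pow_succ', Nat.sub_add_cancel hp.out.one_le, hpow]
  have hχne : χ ≠ 1 := by
    intro h
    apply hg
    rw [h, MulChar.one_apply_coe]
  have hχχne : χ * χ ≠ 1 := by
    intro h
    apply hg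
    have h1 : χ g ^ 2 = 1 := by
      rw [← MulChar.pow_apply_coe, pow_two, h, MulChar.one_apply_coe]
    have h2 : χ g ^ p = 1 := by
      rw [← MulChar.pow_apply_coe, hpow, MulChar.one_apply_coe]
    have h3 := (pow_gcd_eq_one (a := χ g)).2 ⟨h1, h2⟩
    have h4 : Nat.gcd 2 p = 1 :=
      (Nat.coprime_primes Nat.prime_two hp.out).2 (fun h => hp2 h.symm)
    rwa [h4, pow_one] at h3
  have hinj : Function.Injective (algebraMap (𝓞 K) K) :=
    NumberField.RingOfIntegers.coe_injective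
  have hchar : ringChar K ≠ ringChar k := by
    rw [ringChar.eq_zero]
    exact (CharP.char_ne_zero_of_finite k (ringChar k)).symm
  have h1 := jacobiSum_mul_jacobiSum_inv hchar
    ((MulChar.ringHomComp_ne_one_iff hinj).2 hχne) ((MulChar.ringHomComp_ne_one_iff hinj).2 hχne)
    (by rw [← MulChar.ringHomComp_mul]; exact (MulChar.ringHomComp_ne_one_iff hinj).2 hχχne)
  rw [MulChar.ringHomComp_inv, hinv, jacobiSum_ringHomComp, jacobiSum_ringHomComp, ← map_mul,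
    hcard] at h1
  apply hinj
  rw [h1, map_natCast]

include hred in
/-- the norm of a conjugate of `𝔮` -/
theorem absNorm_comap_eq (hsurj : Function.Surjective red) (τ : 𝓞 K ≃+* 𝓞 K) :
    Ideal.absNorm (𝔮.comap (τ : 𝓞 K →+* 𝓞 K)) = Fintype.card k := by
  have hker : RingHom.ker (red.comp (τ : 𝓞 K →+* 𝓞 K)) = 𝔮.comap (τ : 𝓞 K →+* 𝓞 K) := by
    ext x
    rw [RingHom.mem_ker, Ideal.mem_comap, RingHom.comp_apply, hred]
  have hsurj' : Function.Surjective (red.comp (τ : 𝓞 K →+* 𝓞 K)) :=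
    hsurj.comp τ.surjective
  rw [Ideal.absNorm_apply, Submodule.cardQuot_apply, ← hker, ← Nat.card_eq_fintype_card]
  exact Nat.card_congr (RingHom.quotientKerEquivOfSurjective hsurj').toEquiv

include hred in
theorem comap_isMaximal (hsurj : Function.Surjective red) (τ : 𝓞 K ≃+* 𝓞 K) :
    (𝔮.comap (τ : 𝓞 K →+* 𝓞 K)).IsMaximal := by
  have hker : RingHom.ker (red.comp (τ : 𝓞 K →+* 𝓞 K)) = 𝔮.comap (τ : 𝓞 K →+* 𝓞 K) := by
    ext x
    rw [RingHom.mem_ker, Ideal.mem_comap, RingHom.comp_apply, hred]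
  rw [← hker]
  exact RingHom.ker_isMaximal_of_surjective _ (hsurj.comp τ.surjective)

include hζ hσ hred hq hqp hcard hχ1 hχ2 in
/-- **the Stickelberger relation for the Jacobi sum `J(χ,χ)`**:
`(J(χ,χ)) = ∏_{1 ≤ t ≤ (p-1)/2} σ_t⁻¹(𝔮)` -/
theorem span_jacobiSum_eq_prod_comap (hp2 : p ≠ 2) (hdeg : Module.finrank ℚ K = p - 1)
    (hsurj : Function.Surjective red) :
    Ideal.span {jacobiSum χ χ} =
      ∏ t ∈ Finset.Icc 1 ((p - 1) / 2), 𝔮.comap (σ t : 𝓞 K →+* 𝓞 K) := by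
  have hodd : p % 2 = 1 := hp.out.eq_two_or_odd.resolve_left hp2
  have hT : ∀ t ∈ Finset.Icc 1 ((p - 1) / 2), 0 < t ∧ 2 * t < p ∧ t < p := by
    intro t ht
    rw [Finset.mem_Icc] at ht
    omega
  -- the two halves
  have hdvd1 : ∏ t ∈ Finset.Icc 1 ((p - 1) / 2), 𝔮.comap (σ t : 𝓞 K →+* 𝓞 K) ∣
      Ideal.span {jacobiSum χ χ} := by
    apply Finset.prod_dvd_of_coprime
    · intro t ht t' ht' hne
      obtain ⟨h0, -, hp'⟩ := hT t ht
      obtain ⟨h0', -, hp''⟩ := hT t' ht'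
      exact Ideal.isCoprime_iff_sup_eq.2 (Ideal.IsMaximal.coprime_of_ne
        (comap_isMaximal 𝔮 red hred hsurj _) (comap_isMaximal 𝔮 red hred hsurj _)
        (comap_ne_comap hζ σ hσ 𝔮 red hred hq hqp hcard h0 hp' h0' hp'' hne))
    · intro t ht
      obtain ⟨h0, h2, hp'⟩ := hT t ht
      rw [Ideal.dvd_iff_le, Ideal.span_singleton_le_iff_mem, Ideal.mem_comap]
      have := σ_jacobiSum_pow_mem hζ σ hσ 𝔮 red hred hq hqp hcard χ hχ1 hχ2 (e := 1) (t := t)
        (r := t) one_pos h0 hp' (by rw [one_mul, Nat.mod_eq_of_lt hp']) h0 h2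
      rwa [pow_one] at this
  have hdvd2 : ∏ t ∈ Finset.Icc 1 ((p - 1) / 2), 𝔮.comap (σ (p - t) : 𝓞 K →+* 𝓞 K) ∣
      Ideal.span {jacobiSum (χ ^ (p - 1)) (χ ^ (p - 1))} := by
    apply Finset.prod_dvd_of_coprime
    · intro t ht t' ht' hne
      obtain ⟨h0, -, hp'⟩ := hT t ht
      obtain ⟨h0', -, hp''⟩ := hT t' ht'
      exact Ideal.isCoprime_iff_sup_eq.2 (Ideal.IsMaximal.coprime_of_ne
        (comap_isMaximal 𝔮 red hred hsurj _) (comap_isMaximal 𝔮 red hred hsurj _)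
        (comap_ne_comap hζ σ hσ 𝔮 red hred hq hqp hcard (t := p - t) (t' := p - t')
          (by omega) (by omega) (by omega) (by omega) (by omega)))
    · intro t ht
      obtain ⟨h0, h2, hp'⟩ := hT t ht
      rw [Ideal.dvd_iff_le, Ideal.span_singleton_le_iff_mem, Ideal.mem_comap]
      refine σ_jacobiSum_pow_mem hζ σ hσ 𝔮 red hred hq hqp hcard χ hχ1 hχ2 (e := p - 1)
        (t := p - t) (r := t) (by omega) (by omega) (by omega) ?_ h0 h2
      obtain ⟨c, hc⟩ : ∃ c, p = t + 1 + c := ⟨p - (t + 1), by omega⟩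
      have h3 : (p - 1) * (p - t) = t + p * c := by
        rw [hc]
        have e1 : t + 1 + c - 1 = t + c := by omega
        have e2 : t + 1 + c - t = 1 + c := by omega
        rw [e1, e2]
        ring
      rw [h3, Nat.add_mul_mod_self_left, Nat.mod_eq_of_lt hp']
  obtain ⟨𝔟, h𝔟⟩ := hdvd1
  obtain ⟨𝔟', h𝔟'⟩ := hdvd2
  -- norms
  have hprod := jacobiSum_mul_jacobiSum_pow hζ red hq hqp hcard χ hχ1 hχ2 hp2
  have hN : Ideal.absNorm (Ideal.span {jacobiSum χ χ}) *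
      Ideal.absNorm (Ideal.span {jacobiSum (χ ^ (p - 1)) (χ ^ (p - 1))}) = q ^ (p - 1) := by
    rw [← map_mul, Ideal.span_singleton_mul_span_singleton, hprod, Ideal.absNorm_span_natCast,
      NumberField.RingOfIntegers.rank, hdeg]
  have hN1 : Ideal.absNorm (∏ t ∈ Finset.Icc 1 ((p - 1) / 2),
      𝔮.comap (σ t : 𝓞 K →+* 𝓞 K)) = q ^ ((p - 1) / 2) := by
    rw [map_prod, Finset.prod_congr rfl (fun t _ => absNorm_comap_eq 𝔮 red hred hsurj (σ t)),
      Finset.prod_const, Nat.card_Icc, hcard, Nat.add_sub_cancel]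
  have hN2 : Ideal.absNorm (∏ t ∈ Finset.Icc 1 ((p - 1) / 2),
      𝔮.comap (σ (p - t) : 𝓞 K →+* 𝓞 K)) = q ^ ((p - 1) / 2) := by
    rw [map_prod,
      Finset.prod_congr rfl (fun t _ => absNorm_comap_eq 𝔮 red hred hsurj (σ (p - t))),
      Finset.prod_const, Nat.card_Icc, hcard, Nat.add_sub_cancel]
  rw [h𝔟, h𝔟', map_mul, map_mul, hN1, hN2] at hN
  have hq0 : 0 < q ^ ((p - 1) / 2) := pow_pos hq.pos _
  have hhalf : q ^ (p - 1) = q ^ ((p - 1) / 2) * q ^ ((p - 1) / 2) := by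
    rw [← pow_add]
    congr 1
    omega
  have h𝔟1 : Ideal.absNorm 𝔟 * Ideal.absNorm 𝔟' = 1 := by
    have h4 : q ^ ((p - 1) / 2) * q ^ ((p - 1) / 2) *
        (Ideal.absNorm 𝔟 * Ideal.absNorm 𝔟') = q ^ ((p - 1) / 2) * q ^ ((p - 1) / 2) * 1 := by
      calc q ^ ((p - 1) / 2) * q ^ ((p - 1) / 2) * (Ideal.absNorm 𝔟 * Ideal.absNorm 𝔟')
          = q ^ ((p - 1) / 2) * Ideal.absNorm 𝔟 * (q ^ ((p - 1) / 2) * Ideal.absNorm 𝔟') := by
            ring
        _ = q ^ (p - 1) := hN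
        _ = q ^ ((p - 1) / 2) * q ^ ((p - 1) / 2) := hhalf
        _ = q ^ ((p - 1) / 2) * q ^ ((p - 1) / 2) * 1 := (mul_one _).symm
    exact Nat.eq_of_mul_eq_mul_left (Nat.mul_pos hq0 hq0) h4
  have h𝔟top : 𝔟 = ⊤ := Ideal.absNorm_eq_one_iff.1 (Nat.eq_one_of_mul_eq_one_right h𝔟1)
  rw [h𝔟, h𝔟top, Ideal.mul_top]

end Main

section Final

variable {p : ℕ} [hp : Fact p.Prime] {K : Type*} [Field K] [NumberField K]

/-- **Stickelberger's relation at a prime of degree one** (Jacobi sum form): for a number field `K`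
of degree `p - 1` containing a primitive `p`-th root of unity `ζ`, ring automorphisms `σ t` of `𝓞 K`
with `σ t ζ = ζ ^ t` and a maximal ideal `𝔮` of `𝓞 K` with residue field of prime order `q ≠ p`,
the ideal `∏_{1 ≤ t ≤ (p-1)/2} σ_t⁻¹(𝔮)` is principal. -/
theorem exists_span_singleton_eq_prod_comap (hp2 : p ≠ 2) {ζ : 𝓞 K} (hζ : IsPrimitiveRoot ζ p)
    (hdeg : Module.finrank ℚ K = p - 1) (σ : ℕ → (𝓞 K ≃+* 𝓞 K))
    (hσ : ∀ t, 0 < t → t < p → σ t ζ = ζ ^ t) (𝔮 : Ideal (𝓞 K)) [h𝔮 : 𝔮.IsMaximal] {q : ℕ}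
    (hq : q.Prime) (hqp : q ≠ p) (hcard : Nat.card (𝓞 K ⧸ 𝔮) = q) :
    ∃ J : 𝓞 K, Ideal.span {J} =
      ∏ t ∈ Finset.Icc 1 ((p - 1) / 2), 𝔮.comap (σ t : 𝓞 K →+* 𝓞 K) := by
  classical
  letI : Field (𝓞 K ⧸ 𝔮) := Ideal.Quotient.field 𝔮
  haveI : Finite (𝓞 K ⧸ 𝔮) := Nat.finite_of_card_ne_zero (hcard ▸ hq.ne_zero)
  letI : Fintype (𝓞 K ⧸ 𝔮) := Fintype.ofFinite _
  have hcard' : Fintype.card (𝓞 K ⧸ 𝔮) = q := by rw [← Nat.card_eq_fintype_card, hcard]
  have hred : ∀ x, Ideal.Quotient.mk 𝔮 x = 0 ↔ x ∈ 𝔮 := fun x => Ideal.Quotient.eq_zero_iff_mem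
  have hpk : (p : 𝓞 K ⧸ 𝔮) ≠ 0 := natCast_ne_zero_of_prime_ne hq hcard' hp.out hqp
  obtain ⟨χ, hχ1, hχ2⟩ := exists_mulChar_red hζ (Ideal.Quotient.mk 𝔮) hpk
  exact ⟨jacobiSum χ χ, span_jacobiSum_eq_prod_comap hζ σ hσ 𝔮 (Ideal.Quotient.mk 𝔮) hred hq hqp
    hcard' χ hχ1 hχ2 hp2 hdeg Ideal.Quotient.mk_surjective⟩

end Final

/-! ### The eigenvalue scalar -/

/-- `8 * ∑_{1 ≤ t ≤ (p-1)/2} t + 1 = p²` for odd `p` -/
theorem eight_mul_sum_Icc_add_one (p : ℕ) (hodd : p % 2 = 1) :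
    8 * ∑ t ∈ Finset.Icc 1 ((p - 1) / 2), t + 1 = p ^ 2 := by
  obtain ⟨n, rfl⟩ : ∃ n, p = 2 * n + 1 := ⟨p / 2, by omega⟩
  have h1 : (2 * n + 1 - 1) / 2 = n := by omega
  rw [h1]
  have h2 : ∑ t ∈ Finset.Icc 1 n, t = ∑ t ∈ Finset.range (n + 1), t := by
    rw [Finset.sum_range_succ', add_zero]
    exact (Finset.sum_bij (fun t _ => t + 1)
      (fun t ht => Finset.mem_Icc.2 ⟨by omega, by have := Finset.mem_range.1 ht; omega⟩)
      (fun a _ b _ h => by omega)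
      (fun b hb => ⟨b - 1, Finset.mem_range.2 (by have := Finset.mem_Icc.1 hb; omega),
        by have := Finset.mem_Icc.1 hb; omega⟩) (fun _ _ => rfl)).symm
  have h3 := Finset.sum_range_id_mul_two (n + 1)
  rw [Nat.add_sub_cancel] at h3
  rw [h2]
  nlinarith

/-- the scalar by which `∑_{1 ≤ t ≤ (p-1)/2} σ_t⁻¹` acts on an `ω⁻¹`-eigenvector is a unit mod `p` -/
theorem sum_Icc_half_ne_zero (p : ℕ) [hp : Fact p.Prime] (hp2 : p ≠ 2) :
    (∑ t ∈ Finset.Icc 1 ((p - 1) / 2), (t : ZMod p)) ≠ 0 := by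
  intro h
  have hodd : p % 2 = 1 := hp.out.eq_two_or_odd.resolve_left hp2
  have h1 := congrArg (Nat.cast (R := ZMod p)) (eight_mul_sum_Icc_add_one p hodd)
  rw [Nat.cast_add, Nat.cast_mul, Nat.cast_sum, h, mul_zero, zero_add, Nat.cast_one, Nat.cast_pow,
    ZMod.natCast_self, zero_pow two_ne_zero] at h1
  exact one_ne_zero h1

end

end Fermat.Agent.CFT.S14
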