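/-
P5 / S14-A: the elementary reduction of `ExtVanishingCts p`.

Let `V` be an admissible extension (`|V| = p²`, `C ⊆ V` of order `p` with trivial action,
`V / C = μ_p`).  Either `C` has a `G_ℚ`-stable complement, or the kernel `N` of the action on `V`
is an open normal subgroup of `G_ℚ`, contained in `G_K = ker χ` (`χ` the mod `p` cyclotomic
character) with index `p`, on which `G_ℚ` acts by conjugation through `χ⁻¹`, containing all
inertia groups at `ℓ ≠ p` and the intersection of `G_K` with the decomposition groups at `p`.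
-/
import Fermat.Prelude.Def_ExtCitation_AdmissibleExtension_v2
import Fermat.Prelude.Def_ExtCitation_KummerBridge
import Fermat.Agent.Lib.CFT.Tower.Defs

set_option autoImplicit false
set_option linter.unusedSectionVars false
set_option linter.style.haveILetI false

namespace Fermat.Agent.CFT.S14

open ExtCitation ValuationSubring

noncomputable section

variable {p : ℕ} [hp : Fact p.Prime] {V : Type} [AddCommGroup V] [Module (ZMod p) V]
  [DistribMulAction GQ V] [SMulCommClass GQ (ZMod p) V] {C : Submodule (ZMod p) V}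

/-- The kernel of the action of `G_ℚ` on `V`. -/
def actKer (V : Type) [AddCommGroup V] [DistribMulAction GQ V] : Subgroup GQ where
  carrier := {σ | ∀ v : V, σ • v = v}
  one_mem' := fun v => one_smul _ v
  mul_mem' := fun {a b} ha hb v => by rw [mul_smul, hb v, ha v]
  inv_mem' := fun {a} ha v => by
    have := ha v
    rw [inv_smul_eq_iff, this]

lemma mem_actKer {σ : GQ} : σ ∈ actKer V ↔ ∀ v : V, σ • v = v := Iff.rfl

instance actKer_normal : (actKer V).Normal :=
  ⟨fun n hn g v => by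
    rw [mul_smul, mul_smul, hn (g⁻¹ • v), smul_inv_smul]⟩

/-- The mod `p` cyclotomic character as an element of `ZMod p`. -/
lemma cycloExp_cast (σ : GQ) : ((cycloExp p σ : ℕ) : ZMod p) = ((cycloChar p σ : (ZMod p)ˣ) : ZMod p) :=
  (coe_cycloChar p σ).symm

lemma cyclo_quot' (hadm : IsAdmissibleExtension p V C) (σ : GQ) (x : V) :
    σ • x - ((cycloChar p σ : (ZMod p)ˣ) : ZMod p) • x ∈ C := by
  have := hadm.cyclo_quot σ x
  rw [← cycloExp_cast]
  exact this

lemma smul_sub_mem_of_ker (hadm : IsAdmissibleExtension p V C) {τ : GQ}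
    (hτ : τ ∈ (cycloChar p).ker) (x : V) : τ • x - x ∈ C := by
  have := cyclo_quot' hadm τ x
  rw [MonoidHom.mem_ker.1 hτ, Units.val_one, one_smul] at this
  exact this

section Basic

variable (hadm : IsAdmissibleExtension p V C)
include hadm

lemma finite_V : Finite V := by
  apply Nat.finite_of_card_ne_zero
  rw [hadm.card_total]
  exact pow_ne_zero _ hp.out.ne_zero

lemma exists_notMem : ∃ x₀ : V, x₀ ∉ C := by
  by_contra h
  have h : ∀ v : V, v ∈ C := fun v => by
    by_contra hv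
    exact h ⟨v, hv⟩
  have h1 : Nat.card C = Nat.card V :=
    Nat.card_congr ⟨fun c => c.1, fun v => ⟨v, h v⟩, fun _ => rfl, fun _ => rfl⟩
  rw [hadm.card_sub, hadm.card_total] at h1
  have hp1 := hp.out.one_lt
  nlinarith [h1, hp1]

/-- `V = C + 𝔽_p x₀` for `x₀ ∉ C`. -/
lemma exists_add_smul {x₀ : V} (hx₀ : x₀ ∉ C) (v : V) :
    ∃ c ∈ C, ∃ a : ZMod p, v = c + a • x₀ := by
  haveI := finite_V hadm
  haveI : Fintype (ZMod p) := ZMod.fintype p
  haveI : Module.Finite (ZMod p) V := Module.Finite.of_finite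
  have hcardV := Module.natCard_eq_pow_finrank (K := ZMod p) (V := V)
  have hcardC := Module.natCard_eq_pow_finrank (K := ZMod p) (V := C)
  rw [hadm.card_total, Nat.card_zmod] at hcardV
  rw [hadm.card_sub, Nat.card_zmod] at hcardC
  have hV : Module.finrank (ZMod p) V = 2 :=
    (Nat.pow_right_injective hp.out.two_le hcardV).symm
  have hC : Module.finrank (ZMod p) C = 1 := by
    have : p ^ 1 = p ^ Module.finrank (ZMod p) C := by rw [pow_one]; exact hcardC
    exact (Nat.pow_right_injective hp.out.two_le this).symm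
  set W : Submodule (ZMod p) V := C ⊔ Submodule.span (ZMod p) {x₀} with hW
  have hlt : C < W := by
    refine lt_of_le_of_ne le_sup_left ?_
    intro h
    apply hx₀
    rw [h]
    exact Submodule.mem_sup_right (Submodule.mem_span_singleton_self x₀)
  have h1 := Submodule.finrank_lt_finrank_of_lt hlt
  have h2 : Module.finrank (ZMod p) W ≤ Module.finrank (ZMod p) V := Submodule.finrank_le W
  have hWtop : W = ⊤ := Submodule.eq_top_of_finrank_eq (by omega)
  have hv : v ∈ W := by rw [hWtop]; exact Submodule.mem_top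
  obtain ⟨c, hc, y, hy, rfl⟩ := Submodule.mem_sup.1 hv
  obtain ⟨a, rfl⟩ := Submodule.mem_span_singleton.1 hy
  exact ⟨c, hc, a, rfl⟩

/-- An element of `G_ℚ` fixing `x₀ ∉ C` acts trivially on `V`. -/
lemma mem_actKer_of_smul_eq {x₀ : V} (hx₀ : x₀ ∉ C) {σ : GQ} (hσ : σ • x₀ = x₀) :
    σ ∈ actKer V := by
  intro v
  obtain ⟨c, hc, a, rfl⟩ := exists_add_smul hadm hx₀ v
  rw [smul_add, hadm.fixed_sub σ c hc, smul_comm, hσ]

/-- The kernel of the action is contained in the kernel of the cyclotomic character. -/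
lemma actKer_le_ker : actKer V ≤ (cycloChar p).ker := by
  intro σ hσ
  obtain ⟨x₀, hx₀⟩ := exists_notMem hadm
  rw [MonoidHom.mem_ker]
  by_contra hne
  have h1 := cyclo_quot' hadm σ x₀
  rw [hσ x₀] at h1
  set a : ZMod p := ((cycloChar p σ : (ZMod p)ˣ) : ZMod p) with ha
  have ha1 : (1 : ZMod p) - a ≠ 0 := by
    intro h
    apply hne
    apply Units.ext
    rw [Units.val_one, ← ha]
    exact (sub_eq_zero.1 h).symm
  have h2 : ((1 : ZMod p) - a) • x₀ ∈ C := by
    rw [sub_smul, one_smul]; exact h1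
  have h3 := C.smul_mem ((1 - a)⁻¹) h2
  rw [smul_smul, inv_mul_cancel₀ ha1, one_smul] at h3
  exact hx₀ h3

end Basic

/-! ## The cocycle `τ ↦ τ x₀ - x₀` on `G_K` -/

section Cocycle

variable (hadm : IsAdmissibleExtension p V C)
include hadm

/-- the homomorphism `G_K → C`, `τ ↦ τ x₀ - x₀` -/
def kerHom (x₀ : V) : (cycloChar p).ker →* Multiplicative C where
  toFun τ := Multiplicative.ofAdd ⟨(τ : GQ) • x₀ - x₀, smul_sub_mem_of_ker hadm τ.2 x₀⟩
  map_one' := by
    apply congrArg Multiplicative.ofAdd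
    apply Subtype.ext
    simp
  map_mul' τ τ' := by
    rw [← ofAdd_add]
    apply congrArg Multiplicative.ofAdd
    apply Subtype.ext
    have h1 : ((τ' : GQ) • x₀ - x₀) ∈ C := smul_sub_mem_of_ker hadm τ'.2 x₀
    have h2 := hadm.fixed_sub (τ : GQ) _ h1
    rw [smul_sub] at h2
    change ((τ : GQ) * (τ' : GQ)) • x₀ - x₀ = ((τ : GQ) • x₀ - x₀) + ((τ' : GQ) • x₀ - x₀)
    rw [mul_smul]
    have : (τ : GQ) • (τ' : GQ) • x₀ = (τ' : GQ) • x₀ - x₀ + (τ : GQ) • x₀ := by
      rw [← h2]; abel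
    rw [this]; abel

lemma kerHom_apply (x₀ : V) (τ : (cycloChar p).ker) :
    ((Multiplicative.toAdd (kerHom hadm x₀ τ) : C) : V) = (τ : GQ) • x₀ - x₀ := rfl

lemma ker_kerHom {x₀ : V} (hx₀ : x₀ ∉ C) :
    (kerHom hadm x₀).ker = (actKer V).subgroupOf (cycloChar p).ker := by
  ext τ
  rw [MonoidHom.mem_ker, Subgroup.mem_subgroupOf]
  constructor
  · intro h
    apply mem_actKer_of_smul_eq hadm hx₀
    have h1 := kerHom_apply hadm x₀ τ
    rw [h] at h1
    exact (sub_eq_zero.1 h1.symm)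
  · intro h
    apply congrArg Multiplicative.ofAdd
    apply Subtype.ext
    change (τ : GQ) • x₀ - x₀ = 0
    rw [h x₀, sub_self]

/-- `[G_K : N]` is `1` or `p`. -/
lemma index_actKer_eq_one_or :
    ((actKer V).subgroupOf (cycloChar p).ker).index = 1 ∨
      ((actKer V).subgroupOf (cycloChar p).ker).index = p := by
  obtain ⟨x₀, hx₀⟩ := exists_notMem hadm
  rw [← ker_kerHom hadm hx₀, Subgroup.index_ker]
  haveI : Finite C := Nat.finite_of_card_ne_zero (by rw [hadm.card_sub]; exact hp.out.ne_zero)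
  have h1 : Nat.card (kerHom hadm x₀).range ∣ Nat.card (Multiplicative C) :=
    Subgroup.card_subgroup_dvd_card _
  rw [Nat.card_congr Multiplicative.toAdd, hadm.card_sub] at h1
  exact (Nat.dvd_prime hp.out).1 h1

/-- the conjugation formula `c(σ τ σ⁻¹) = χ(σ)⁻¹ c(τ)` -/
lemma conj_smul_sub (x₀ : V) (σ : GQ) {τ : GQ} (hτ : τ ∈ (cycloChar p).ker) :
    (σ * τ * σ⁻¹) • x₀ - x₀ =
      ((cycloChar p σ⁻¹ : (ZMod p)ˣ) : ZMod p) • (τ • x₀ - x₀) := by
  set a : ZMod p := ((cycloChar p σ⁻¹ : (ZMod p)ˣ) : ZMod p) with ha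
  -- `σ⁻¹ x₀ = a x₀ + b`
  set b : V := σ⁻¹ • x₀ - a • x₀ with hb
  have hbC : b ∈ C := cyclo_quot' hadm σ⁻¹ x₀
  have hcC : τ • x₀ - x₀ ∈ C := smul_sub_mem_of_ker hadm hτ x₀
  have h1 : σ⁻¹ • x₀ = a • x₀ + b := by rw [hb]; abel
  have h2 : τ • σ⁻¹ • x₀ = σ⁻¹ • x₀ + a • (τ • x₀ - x₀) := by
    rw [h1, smul_add, hadm.fixed_sub τ b hbC, smul_comm τ a x₀, smul_sub]
    abel
  rw [mul_smul, mul_smul, h2, smul_add, smul_inv_smul, hadm.fixed_sub σ _ (C.smul_mem a hcC)]
  abel

end Cocycle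

/-! ## The abelian case -/

section Abelian

variable (hadm : IsAdmissibleExtension p V C)
include hadm

/-- If `G_K` acts trivially on `V` and `χ ≠ 1`, the extension splits. -/
theorem splitsGlobally_of_ker_le (hle : (cycloChar p).ker ≤ actKer V)
    (hχ : ∃ σ₀ : GQ, cycloChar p σ₀ ≠ 1) : SplitsGlobally C := by
  obtain ⟨σ₀, hσ₀⟩ := hχ
  set a₀ : ZMod p := ((cycloChar p σ₀ : (ZMod p)ˣ) : ZMod p) with ha₀
  have ha1 : (1 : ZMod p) - a₀ ≠ 0 := by
    intro h
    apply hσ₀
    apply Units.ext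
    rw [Units.val_one, ← ha₀]
    exact (sub_eq_zero.1 h).symm
  -- the image of `G_ℚ` in `Aut V` is abelian
  have hcomm : ∀ (σ : GQ) (v : V), σ • σ₀ • v = σ₀ • σ • v := by
    intro σ v
    have hk : σ * σ₀ * σ⁻¹ * σ₀⁻¹ ∈ (cycloChar p).ker := by
      rw [MonoidHom.mem_ker, map_mul, map_mul, map_mul, map_inv, map_inv]
      rw [mul_comm (cycloChar p σ) (cycloChar p σ₀), mul_assoc, mul_assoc,
        mul_inv_cancel_left, mul_inv_cancel]
    have h1 := hle hk (σ₀ • σ • v)
    rw [mul_smul, mul_smul, mul_smul, inv_smul_smul, inv_smul_smul] at h1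
    exact h1
  let C' : Submodule (ZMod p) V :=
    { carrier := {v | σ₀ • v = a₀ • v}
      add_mem' := fun {x y} hx hy => by
        change σ₀ • (x + y) = a₀ • (x + y)
        rw [smul_add, smul_add, hx, hy]
      zero_mem' := by
        change σ₀ • (0 : V) = a₀ • (0 : V)
        rw [smul_zero, smul_zero]
      smul_mem' := fun c x hx => by
        change σ₀ • (c • x) = a₀ • (c • x)
        rw [smul_comm σ₀ c x, hx, smul_comm] }
  have hC' : ∀ v : V, v ∈ C' ↔ σ₀ • v = a₀ • v := fun _ => Iff.rfl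
  refine ⟨C', ?_, ?_⟩
  · intro σ x hx
    rw [hC'] at hx ⊢
    rw [← hcomm, hx, smul_comm]
  · rw [isCompl_iff]
    constructor
    · rw [Submodule.disjoint_def]
      intro v hvC hvC'
      rw [hC', hadm.fixed_sub σ₀ v hvC] at hvC'
      have h1 : ((1 : ZMod p) - a₀) • v = 0 := by
        rw [sub_smul, one_smul, ← hvC', sub_self]
      have h2 := congrArg (fun w => ((1 : ZMod p) - a₀)⁻¹ • w) h1
      simp only [smul_smul, inv_mul_cancel₀ ha1, one_smul, smul_zero] at h2
      exact h2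
    · rw [codisjoint_iff, _root_.eq_top_iff]
      intro v _
      have hcC : σ₀ • v - a₀ • v ∈ C := cyclo_quot' hadm σ₀ v
      obtain ⟨d, hd⟩ : ∃ d : V, d = ((1 : ZMod p) - a₀)⁻¹ • (σ₀ • v - a₀ • v) := ⟨_, rfl⟩
      have hdC : d ∈ C := by rw [hd]; exact C.smul_mem _ hcC
      have hcd : ((1 : ZMod p) - a₀) • d = σ₀ • v - a₀ • v := by
        rw [hd, smul_smul, mul_inv_cancel₀ ha1, one_smul]
      rw [sub_smul, one_smul] at hcd
      refine Submodule.mem_sup.2 ⟨d, hdC, v - d, ?_, by abel⟩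
      rw [hC', smul_sub, hadm.fixed_sub σ₀ d hdC, smul_sub]
      have h1 : σ₀ • v = a₀ • v + (d - a₀ • d) := by rw [hcd]; abel
      rw [h1]
      abel

end Abelian

/-! ## The main reduction -/

/-- **S14-A.** An admissible extension splits, or the kernel `N` of the action is an open normal
subgroup of index `p` in `G_K = ker χ` with the listed properties. -/
theorem splitsGlobally_or_exists (hadm : IsAdmissibleExtensionCts p V C)
    (hχ : ∃ σ₀ : GQ, cycloChar p σ₀ ≠ 1) :
    SplitsGlobally C ∨ ∃ N : Subgroup GQ, N.Normal ∧ IsOpen (N : Set GQ) ∧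
      N ≤ (cycloChar p).ker ∧ (N.subgroupOf (cycloChar p).ker).index = p ∧
      (∀ σ τ : GQ, τ ∈ (cycloChar p).ker → (σ * τ * σ⁻¹) ^ (cycloExp p σ) * τ⁻¹ ∈ N) ∧
      (∀ ℓ : ℕ, ℓ.Prime → ℓ ≠ p → ∀ A : ValuationSubring Qbar, A.LiesOverPrime ℓ →
        A.inertiaSubgroupIn ℚ ≤ N) ∧
      (∀ A : ValuationSubring Qbar, A.LiesOverPrime p →
        A.decompositionSubgroup ℚ ⊓ (cycloChar p).ker ≤ N) := by
  have hadm' := hadm.toIsAdmissibleExtension
  rcases index_actKer_eq_one_or hadm' with h1 | h1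
  · left
    refine splitsGlobally_of_ker_le hadm' ?_ hχ
    rw [Subgroup.index_eq_one, Subgroup.subgroupOf_eq_top] at h1
    exact h1
  · right
    obtain ⟨x₀, hx₀⟩ := exists_notMem hadm'
    refine ⟨actKer V, inferInstance, hadm.open_kernel, actKer_le_ker hadm', h1, ?_, ?_, ?_⟩
    · intro σ τ hτ
      apply mem_actKer_of_smul_eq hadm' hx₀
      -- compute with the homomorphism `kerHom`
      have hconj : σ * τ * σ⁻¹ ∈ (cycloChar p).ker :=
        (inferInstance : (cycloChar p).ker.Normal).conj_mem τ hτ σ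
      have hpow : (σ * τ * σ⁻¹) ^ cycloExp p σ ∈ (cycloChar p).ker := pow_mem hconj _
      have hinv : τ⁻¹ ∈ (cycloChar p).ker := inv_mem hτ
      have hmul : kerHom hadm' x₀ ((⟨σ * τ * σ⁻¹, hconj⟩ : (cycloChar p).ker) ^ cycloExp p σ *
          (⟨τ, hτ⟩ : (cycloChar p).ker)⁻¹) =
          kerHom hadm' x₀ ⟨σ * τ * σ⁻¹, hconj⟩ ^ cycloExp p σ * (kerHom hadm' x₀ ⟨τ, hτ⟩)⁻¹ := by
        rw [map_mul, map_pow, map_inv]
      have h2 := congrArg (fun m : Multiplicative C => ((Multiplicative.toAdd m : C) : V)) hmul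
      simp only [toAdd_mul, toAdd_pow, toAdd_inv, Submodule.coe_add, Submodule.coe_neg,
        kerHom_apply, AddSubmonoidClass.coe_nsmul] at h2
      change ((σ * τ * σ⁻¹) ^ cycloExp p σ * τ⁻¹) • x₀ - x₀ = _ at h2
      rw [conj_smul_sub hadm' x₀ σ hτ] at h2
      have hcC : τ • x₀ - x₀ ∈ C := smul_sub_mem_of_ker hadm' hτ x₀
      rw [← sub_eq_zero, h2]
      -- `n • (χ(σ)⁻¹ c) - c = 0`
      have h4 : (cycloExp p σ) • (((cycloChar p σ⁻¹ : (ZMod p)ˣ) : ZMod p) • (τ • x₀ - x₀)) =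
          τ • x₀ - x₀ := by
        rw [← Nat.cast_smul_eq_nsmul (ZMod p), smul_smul, cycloExp_cast, ← Units.val_mul,
          ← map_mul, mul_inv_cancel, map_one, Units.val_one, one_smul]
      rw [h4]
      abel
    · intro ℓ hℓ hℓp A hA σ hσ v
      exact hadm.unramified_outside ℓ hℓ hℓp A hA σ hσ v
    · intro A hA τ hτ
      obtain ⟨C', hC'stab, hcompl⟩ := hadm.locally_split A hA
      apply mem_actKer_of_smul_eq hadm' hx₀
      have htop : x₀ ∈ C ⊔ C' := by rw [hcompl.sup_eq_top]; exact Submodule.mem_top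
      obtain ⟨c, hc, c', hc', rfl⟩ := Submodule.mem_sup.1 htop
      rw [smul_add, hadm.fixed_sub τ c hc]
      have h5 : τ • c' - c' ∈ C := smul_sub_mem_of_ker hadm' hτ.2 c'
      have h6 : τ • c' - c' ∈ C' := C'.sub_mem (hC'stab τ hτ.1 c' hc') hc'
      have h7 : τ • c' - c' = 0 := by
        have := Submodule.disjoint_def.1 hcompl.disjoint _ h5 h6
        exact this
      rw [sub_eq_zero.1 h7]

end

end Fermat.Agent.CFT.S14
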