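/-
P5 / S14-B3: from the kernel `N` of S14-A to a level.

* the mod `p` cyclotomic character: `apply_eq_pow_cycloExp`, `cycloChar_ker_eq`
  (`ker χ = Gal(ℚ̄ / ℚ(ζ_p))`), `cycloChar_surjective`, `exists_cycloExp_eq`,
  `exists_cycloChar_ne_one`;
* `padicPlace_liesOverPrime`;
* `exists_level_of_kernel` : an open normal subgroup `N ⊆ ker χ` of index `p`, containing the inertia
  groups at `ℓ ≠ p` and `D_p ∩ ker χ`, is `L.N` for a `{p}`-level `L ⊇ K₀ = ℚ(ζ_p)` with
  `[L : K₀] = p` in which all places over `p` are free under `Gal(L / K₀)`.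
-/
import Fermat.Agent.Lib.CFT.S14.Reduction
import Fermat.Agent.Lib.CFT.Bridge.CycloTower
import Fermat.Agent.Lib.CFT.Bridge.LocalPlace
import Fermat.Agent.Lib.CFT.Bridge.Levels
import Fermat.Agent.Lib.CFT.Global.Induced

set_option autoImplicit false
set_option linter.unusedSectionVars false
set_option linter.style.haveILetI false

namespace Fermat.Agent.CFT.S14

open ExtCitation ValuationSubring Bridge Global Duality

noncomputable section

variable (p : ℕ) [hp : Fact p.Prime]

/-! ## The mod `p` cyclotomic character -/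

/-- the defining property of the mod `p` cyclotomic character -/
lemma apply_eq_pow_cycloExp (σ : GQ) {t : Qbar} (ht : t ^ p = 1) : σ t = t ^ cycloExp p σ := by
  haveI : NeZero p := ⟨hp.out.ne_zero⟩
  have ht0 : t ≠ 0 := by
    rintro rfl
    rw [zero_pow hp.out.ne_zero] at ht
    exact zero_ne_one ht
  let u : Qbarˣ := Units.mk0 t ht0
  have hu : u ∈ rootsOfUnity p Qbar := by
    rw [mem_rootsOfUnity]
    apply Units.ext
    rw [Units.val_pow_eq_pow_val, Units.val_one]
    exact ht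
  have h2 := modularCyclotomicCharacter.spec Qbar (ExtCitation.card_rootsOfUnity_eq_self p)
    (σ : Qbar ≃+* Qbar) hu
  exact h2

lemma cycloExp_eq_one_of_cycloChar {σ : GQ} (h : cycloChar p σ = 1) : cycloExp p σ = 1 := by
  haveI : Fact (1 < p) := ⟨hp.out.one_lt⟩
  rw [← val_cycloChar, h, Units.val_one, ZMod.val_one]

/-- `ker χ = Gal(ℚ̄ / ℚ(ζ_p))`. -/
lemma cycloChar_eq_one_iff (σ : GQ) : cycloChar p σ = 1 ↔ σ ∈ (cycLevel p 0).N := by
  haveI : NeZero (p ^ (0 + 1)) := ⟨pow_ne_zero _ hp.out.ne_zero⟩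
  have hmem : σ ∈ (cycLevel p 0).N ↔ σ (zetaPow p 0) = zetaPow p 0 :=
    Pinf.mem_cycloLevel_N_iff (p ^ (0 + 1)) σ
  rw [hmem]
  have hζ := zetaPow_spec p 0
  constructor
  · intro h
    have h1 : zetaPow p 0 ^ p = 1 := by
      have := hζ.pow_eq_one
      rwa [zero_add, pow_one] at this
    rw [apply_eq_pow_cycloExp p σ h1, cycloExp_eq_one_of_cycloChar p h, pow_one]
  · intro h
    refine cycloChar_eq_one_of_fixes p σ (fun t ht => ?_)
    have ht' : t ^ p ^ (0 + 1) = 1 := by rw [zero_add, pow_one]; exact ht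
    obtain ⟨i, -, rfl⟩ := hζ.eq_pow_of_pow_eq_one ht'
    rw [map_pow, h]

lemma cycloChar_ker_eq : (cycloChar p).ker = (cycLevel p 0).N := by
  ext σ
  rw [MonoidHom.mem_ker, cycloChar_eq_one_iff]

/-- the mod `p` cyclotomic character of `G_ℚ` is surjective -/
lemma cycloChar_surjective : Function.Surjective (cycloChar p) := by
  haveI : NeZero p := ⟨hp.out.ne_zero⟩
  haveI : NeZero (p ^ (0 + 1)) := ⟨pow_ne_zero _ hp.out.ne_zero⟩
  rw [← MonoidHom.range_eq_top]
  apply Subgroup.eq_top_of_card_eq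
  rw [← Subgroup.index_ker, cycloChar_ker_eq, ← Pinf.Level.natCard_G]
  have h1 : Nat.card (cycLevel p 0).G = (p ^ (0 + 1)).totient := Pinf.cycloLevel_natCard _
  rw [h1, zero_add, pow_one, Nat.card_eq_fintype_card, ZMod.card_units_eq_totient]

lemma exists_cycloExp_eq {t : ℕ} (ht : 0 < t) (htp : t < p) : ∃ σ : GQ, cycloExp p σ = t := by
  haveI : NeZero p := ⟨hp.out.ne_zero⟩
  have hcop : Nat.Coprime t p :=
    ((Nat.Prime.coprime_iff_not_dvd hp.out).2
      (fun h => absurd (Nat.le_of_dvd ht h) (not_le.2 htp))).symm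
  obtain ⟨σ, hσ⟩ := cycloChar_surjective p (ZMod.unitOfCoprime t hcop)
  refine ⟨σ, ?_⟩
  rw [← val_cycloChar, hσ, ZMod.coe_unitOfCoprime, ZMod.val_natCast, Nat.mod_eq_of_lt htp]

lemma exists_cycloChar_ne_one (h3 : 3 ≤ p) : ∃ σ₀ : GQ, cycloChar p σ₀ ≠ 1 := by
  obtain ⟨σ, hσ⟩ := exists_cycloExp_eq p (t := 2) (by norm_num) (by omega)
  refine ⟨σ, fun h => ?_⟩
  rw [cycloExp_eq_one_of_cycloChar p h] at hσ
  omega

/-! ## The distinguished place over `p` -/

lemma padicPlace_liesOverPrime : (padicPlace p).LiesOverPrime p := by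
  change ((p : ℕ) : Qbar) ∈ (padicPlace p).nonunits
  rw [ValuationSubring.mem_nonunits_iff_or]
  right
  rw [mem_padicPlace_iff, map_inv₀, map_natCast, nnnorm_inv, not_le]
  have h1 : ‖((p : ℕ) : PadicAlgCl p)‖₊ < 1 := by
    rw [← NNReal.coe_lt_coe, coe_nnnorm, NNReal.coe_one]
    have h2 := PadicAlgCl.norm_extends p ((p : ℕ) : ℚ_[p])
    rw [Padic.norm_p] at h2
    have h3 : (((p : ℕ) : ℚ_[p]) : PadicAlgCl p) = ((p : ℕ) : PadicAlgCl p) := map_natCast _ _
    rw [h3] at h2
    rw [h2]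
    exact inv_lt_one_of_one_lt₀ (by exact_mod_cast hp.out.one_lt)
  have h0 : ‖((p : ℕ) : PadicAlgCl p)‖₊ ≠ 0 := by
    rw [nnnorm_ne_zero_iff]
    exact_mod_cast hp.out.ne_zero
  exact (one_lt_inv₀ (pos_iff_ne_zero.2 h0)).2 h1

/-! ## The level of the kernel -/

/-- **S14-B3.** -/
theorem exists_level_of_kernel (N : Subgroup GQ) [hN : N.Normal] (hopen : IsOpen (N : Set GQ))
    (hle : N ≤ (cycloChar p).ker) (hidx : (N.subgroupOf (cycloChar p).ker).index = p)
    (hin : ∀ ℓ : ℕ, ℓ.Prime → ℓ ≠ p → ∀ A : ValuationSubring Qbar, A.LiesOverPrime ℓ →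
      A.inertiaSubgroupIn ℚ ≤ N)
    (hdec : ∀ A : ValuationSubring Qbar, A.LiesOverPrime p →
      A.decompositionSubgroup ℚ ⊓ (cycloChar p).ker ≤ N) :
    ∃ (L : Level) (_ : L.IsS {pPrimes p}) (h : cycLevel p 0 ≤ L), L.N = N ∧
      Nat.card (Level.relGroup h) = p ∧
      ∀ w : Place p L.field, ∀ g ∈ Level.relGroup h, g • w = w → g = 1 := by
  obtain ⟨L, hL⟩ := exists_level_N_eq N hopen
  subst hL
  have hS : L.IsS {pPrimes p} := by
    rw [Level.isS_iff]
    intro q hq A hA
    refine hin q q.2 ?_ A hA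
    intro h
    apply hq
    rw [Finset.mem_singleton]
    exact Subtype.ext h
  have h : cycLevel p 0 ≤ L := by
    rw [Level.le_iff_N_le, ← cycloChar_ker_eq]
    exact hle
  refine ⟨L, hS, h, rfl, ?_, ?_⟩
  · -- the degree
    have h1 := Pinf.Level.natCard_G_eq_mul h
    rw [Pinf.Level.natCard_G, Pinf.Level.natCard_G] at h1
    have h2 := Subgroup.relIndex_mul_index (Level.N_anti h)
    rw [← h2] at h1
    have h3 : (cycLevel p 0).N.index ≠ 0 := by
      rw [← Pinf.Level.natCard_G]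
      exact (Pinf.Level.natCard_G_pos _).ne'
    have h4 := Nat.eq_of_mul_eq_mul_right (Nat.pos_of_ne_zero h3) h1
    change Nat.card (Level.map h).ker = p
    rw [← h4]
    rw [cycloChar_ker_eq] at hidx
    exact hidx
  · -- the places over `p`
    have key : ∀ g ∈ Level.relGroup h, g • L.place p = L.place p → g = 1 := by
      intro g hg hgw
      have hgD : g ∈ decomp (pPrimes p) L := by
        rw [decomp_eq_decompGroup]
        exact hgw
      obtain ⟨σ, ⟨τ, rfl⟩, rfl⟩ := hgD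
      have h1 : primeLocalToGlobal (pPrimes p) τ ∈ (padicPlace p).decompositionSubgroup ℚ :=
        localGaloisToGlobal_mem_decompositionSubgroup p τ
      have h2 : primeLocalToGlobal (pPrimes p) τ ∈ (cycloChar p).ker := by
        rw [cycloChar_ker_eq]
        have h3 : Level.map h (L.proj (primeLocalToGlobal (pPrimes p) τ)) = 1 := hg
        rw [Level.map_proj] at h3
        exact (QuotientGroup.eq_one_iff _).1 h3
      have h4 := hdec (padicPlace p) (padicPlace_liesOverPrime p) ⟨h1, h2⟩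
      exact (QuotientGroup.eq_one_iff _).2 h4
    intro w g hg hgw
    obtain ⟨x, hx⟩ := Place.exists_smul_eq_of_rat (G := L.G) (L.place p) w
    have hconj : x⁻¹ * g * x ∈ Level.relGroup h := by
      have := (inferInstance : (Level.relGroup h).Normal).conj_mem g hg x⁻¹
      rwa [inv_inv] at this
    have h5 := key (x⁻¹ * g * x) hconj (by
      rw [mul_smul, mul_smul, hx, hgw, ← hx, inv_smul_smul])
    have : g = x * (x⁻¹ * g * x) * x⁻¹ := by group
    rw [this, h5, mul_one, mul_inv_cancel]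

end

end Fermat.Agent.CFT.S14
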