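/-
P5 / S14-F: final assembly of `ExtVanishingCts p` for `p ≥ 3`.
-/
import Fermat.Agent.Lib.CFT.S14.Reduction
import Fermat.Agent.Lib.CFT.S14.LevelOfKernel
import Fermat.Agent.Lib.CFT.S14.NormClasses
import Fermat.Agent.Lib.CFT.S14.JacobiPrincipal
import Fermat.Agent.Lib.CFT.S14.ConjEquivariant
import Fermat.Agent.Lib.CFT.S14.IdealIdele
import Fermat.Agent.Lib.CFT.S14.DegreeOne
import Fermat.Agent.Lib.CFT.Bridge.CycClassesS

set_option autoImplicit false
set_option linter.unusedSectionVars false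
set_option linter.style.haveILetI false

open scoped NumberField Pointwise
open IsDedekindDomain NumberField

namespace Fermat.Agent.CFT.S14

open ExtCitation ValuationSubring Bridge Global Duality

noncomputable section

/-- if `x ^ a` and `x ^ b` lie in a subgroup for coprime `a`, `b`, so does `x` -/
lemma mem_of_pow_mem_of_coprime {G : Type*} [Group G] (N : Subgroup G) (x : G) {a b : ℕ}
    (hab : Nat.Coprime a b) (ha : x ^ a ∈ N) (hb : x ^ b ∈ N) : x ∈ N := by
  have h1 := Nat.gcd_eq_gcd_ab a b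
  rw [hab.gcd_eq_one, Nat.cast_one] at h1
  have h2 : x = (x ^ a) ^ (Nat.gcdA a b) * (x ^ b) ^ (Nat.gcdB a b) := by
    rw [← zpow_natCast, ← zpow_natCast, ← zpow_mul, ← zpow_mul, ← zpow_add, ← h1, zpow_one]
  rw [h2]
  exact N.mul_mem (N.zpow_mem ha _) (N.zpow_mem hb _)

variable (p : ℕ) [hp : Fact p.Prime]

/-- `ℚ(ζ_p)` is a `{p}`-level. -/
lemma cycLevel_zero_isS : (cycLevel p 0).IsS {pPrimes p} :=
  cycLevel_isS p {pPrimes p} (Finset.mem_singleton_self _) 0


/-! ## The data over `K₀ = ℚ(ζ_p)` -/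

/-- an element of `G_ℚ` with prescribed cyclotomic exponent -/
def sig (t : ℕ) : GQ :=
  if ht : 0 < t ∧ t < p then (exists_cycloExp_eq p ht.1 ht.2).choose else 1

lemma cycloExp_sig {t : ℕ} (ht : 0 < t) (htp : t < p) : cycloExp p (sig p t) = t := by
  rw [sig, dif_pos ⟨ht, htp⟩]
  exact (exists_cycloExp_eq p ht htp).choose_spec

/-- the primitive `p`-th root of unity of `𝓞 K₀` -/
def zetaInt : 𝓞 (cycLevel p 0).field :=
  ⟨zetaL p 0 (cycLevel p 0) (hasZeta_cycLevel p 0), by
    have h1 := (zetaL_spec p 0 (cycLevel p 0) (hasZeta_cycLevel p 0)).pow_eq_one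
    exact IsIntegral.of_pow (pow_pos hp.out.pos _) (by rw [h1]; exact isIntegral_one)⟩

lemma zetaInt_spec : IsPrimitiveRoot (zetaInt p) p := by
  have h1 := zetaL_spec p 0 (cycLevel p 0) (hasZeta_cycLevel p 0)
  rw [zero_add, pow_one] at h1
  exact IsPrimitiveRoot.of_map_of_injective (f := algebraMap (𝓞 (cycLevel p 0).field)
    (cycLevel p 0).field) h1 (RingOfIntegers.coe_injective)

lemma finrank_cycLevel_zero : Module.finrank ℚ (cycLevel p 0).field = p - 1 := by
  haveI : NeZero (p ^ (0 + 1)) := ⟨pow_ne_zero _ hp.out.ne_zero⟩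
  rw [← IsGaloisGroup.card_eq_finrank (cycLevel p 0).G ℚ (cycLevel p 0).field]
  have h1 : Nat.card (cycLevel p 0).G = (p ^ (0 + 1)).totient := Pinf.cycloLevel_natCard _
  rw [h1, zero_add, pow_one, Nat.totient_prime hp.out]

/-- the action of `G_ℚ` on `ζ_p ∈ 𝓞 K₀` -/
lemma proj_smul_zetaInt (σ : GQ) :
    (cycLevel p 0).proj σ • zetaInt p = zetaInt p ^ cycloExp p σ := by
  apply RingOfIntegers.ext
  apply Subtype.ext
  have h1 : ((((cycLevel p 0).proj σ • zetaInt p : 𝓞 (cycLevel p 0).field) :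
      (cycLevel p 0).field) : Qbar) = σ (zetaPow p 0) := by
    change (((cycLevel p 0).proj σ • (zetaL p 0 (cycLevel p 0) (hasZeta_cycLevel p 0)) :
      (cycLevel p 0).field) : Qbar) = _
    rw [Level.coe_proj_smul]
    rfl
  rw [h1]
  have h2 : zetaPow p 0 ^ p = 1 := by
    have := (zetaPow_spec p 0).pow_eq_one
    rwa [zero_add, pow_one] at this
  rw [apply_eq_pow_cycloExp p σ h2]
  rfl

lemma cycloChar_eq_one_of_cycloExp {σ : GQ} (h : cycloExp p σ = 1) : cycloChar p σ = 1 := by
  apply Units.ext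
  rw [coe_cycloChar, h, Nat.cast_one, Units.val_one]

lemma cycloExp_lt (σ : GQ) : cycloExp p σ < p := by
  haveI : NeZero p := ⟨hp.out.ne_zero⟩
  rw [← val_cycloChar]
  exact ZMod.val_lt _

section Level

variable (F : PFundamental p (towerS {pPrimes p} (cycLevel p 0) (cycLevel_zero_isS p))
    (Ctow {pPrimes p} (cycLevel p 0) (cycLevel_zero_isS p)))
  (L : Level) (hL : L.IsS {pPrimes p}) (h : cycLevel p 0 ≤ L)
  (hcard : Nat.card (Level.relGroup h) = p)
  (hconj : ∀ σ τ : GQ, τ ∈ (cycLevel p 0).N → (σ * τ * σ⁻¹) ^ (cycloExp p σ) * τ⁻¹ ∈ L.N)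

include F hL hcard hconj in
/-- **Equivariance of the reciprocity isomorphism** (B2-6): `Gal(K₀/ℚ)` acts on
`C_S(K₀) / N C_S(L)` through `χ⁻¹`. -/
theorem div_pow_mem_normCl (σ : GQ) (c : CS {pPrimes p} (cycLevel p 0).field) :
    letI := Level.algebraOfLE h
    ((cycLevel p 0).proj σ⁻¹ • c) / c ^ (cycloExp p σ) ∈
      normCl {pPrimes p} (cycLevel p 0).field L.field (Level.relGroup h) := by
  letI := Level.algebraOfLE h
  haveI : Fact (Nat.card (Level.relGroup h)).Prime := ⟨by rw [hcard]; exact hp.out⟩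
  -- a generator of `Gal(L/K₀)`
  obtain ⟨h₀, hh₀⟩ := (isCyclic_of_prime_card (α := Level.relGroup h) rfl).exists_generator
  obtain ⟨τ, hτ⟩ := L.proj_surjective (h₀ : L.G)
  have hτK : τ ∈ (cycLevel p 0).N := by
    have h1 : Level.map h (L.proj τ) = 1 := by rw [hτ]; exact h₀.2
    rw [Level.map_proj] at h1
    exact (QuotientGroup.eq_one_iff _).1 h1
  set g : L.G := L.proj σ with hg
  set n : ℕ := cycloExp p σ with hn
  -- the conjugate generator
  set h₁ : L.G := g * (h₀ : L.G) * g⁻¹ with hh₁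
  have hh₁mem : h₁ ∈ Level.relGroup h :=
    (inferInstance : (Level.relGroup h).Normal).conj_mem _ h₀.2 g
  have hpow : h₁ ^ n = (h₀ : L.G) := by
    have h2 := hconj σ τ hτK
    have h3 : L.proj ((σ * τ * σ⁻¹) ^ n * τ⁻¹) = 1 := (QuotientGroup.eq_one_iff _).2 h2
    rw [map_mul, map_pow, map_mul, map_mul, map_inv, map_inv, hτ, mul_inv_eq_one] at h3
    exact h3
  have hgen₁ : ∀ x ∈ Level.relGroup h, x ∈ Subgroup.zpowers h₁ := by
    intro x hx
    have h4 := hh₀ ⟨x, hx⟩
    rw [Subgroup.mem_zpowers_iff] at h4 ⊢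
    obtain ⟨k, hk⟩ := h4
    refine ⟨n * k, ?_⟩
    have h5 := congrArg (Subtype.val : Level.relGroup h → L.G) hk
    rw [Subgroup.coe_zpow] at h5
    rw [zpow_mul, zpow_natCast, hpow, h5]
  have hm : g⁻¹ * h₁ * g⁻¹⁻¹ = h₁ ^ n := by
    rw [hpow, hh₁]; group
  -- the fundamental class
  let k : (towerS {pPrimes p} (cycLevel p 0) (cycLevel_zero_isS p)).ι := ⟨⟨L, h⟩, hL⟩
  have hu : ∀ y : groupCohomology (Rep.res (Level.relGroup h).subtype
      (Rep.ofMulDistribMulAction L.G (CS {pPrimes p} L.field))) 2,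
      ∃ m : ℤ, y = m • Coh.resClass (Rep.ofMulDistribMulAction L.G (CS {pPrimes p} L.field))
        (F.u k) (Level.relGroup h) := by
    intro y
    exact Coh.exists_zsmul_resClass_of_pGroup
      (Rep.ofMulDistribMulAction L.G (CS {pPrimes p} L.field)) p (F.u k) (F.u_order k)
      (F.h2P k) (Level.relGroup h) (IsPGroup.of_card (n := 1) (by rw [hcard, pow_one])) y
  have hinv : ∀ x ∈ Level.relGroup h,
      x • CS.map {pPrimes p} (Level.incl h) c = CS.map {pPrimes p} (Level.incl h) c := by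
    intro x hx
    have := CStow_smul {pPrimes p} h x c
    rw [(MonoidHom.mem_ker).1 hx, one_smul] at this
    exact this.symm
  obtain ⟨d, hd⟩ := exists_smul_eq_pow_mul_prod (Level.relGroup h) h₁ hh₁mem hgen₁ (F.u k) hu
    g⁻¹ n hm (CS.map {pPrimes p} (Level.incl h) c) hinv
  rw [mem_normCl_iff]
  refine ⟨d, ?_⟩
  have h6 : CS.map {pPrimes p} (Level.incl h) ((cycLevel p 0).proj σ⁻¹ • c) =
      g⁻¹ • CS.map {pPrimes p} (Level.incl h) c := by
    rw [← CStow_smul {pPrimes p} h g⁻¹ c, hg, ← map_inv, Level.map_proj]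
  change normProd (Level.relGroup h) d = CS.map {pPrimes p} (Level.incl h) _
  rw [map_div, map_pow, h6, hd, mul_comm, mul_div_assoc, div_self', mul_one, normProd_apply]
  rfl


include F hL hcard hconj in
/-- every prime idele away from `p` is a norm class -/
theorem mk_primeIdele_mem_normCl (hp2 : p ≠ 2)
    (hfree : ∀ w : Place p L.field, ∀ g ∈ Level.relGroup h, g • w = w → g = 1)
    (q : Nat.Primes) (hq : q ∉ ({pPrimes p} : Finset Nat.Primes))
    (inst : DecidableEq (Place (q : ℕ) (cycLevel p 0).field))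
    (w : Place (q : ℕ) (cycLevel p 0).field) :
    letI := Level.algebraOfLE h
    CS.mk {pPrimes p} (cycLevel p 0).field (primeIdele q {w}) ∈
      normCl {pPrimes p} (cycLevel p 0).field L.field (Level.relGroup h) := by
  classical
  letI := Level.algebraOfLE h
  haveI := Level.isGaloisGroup_relGroup h
  have hinst : inst = (fun a b => Classical.propDecidable (a = b)) := Subsingleton.elim _ _
  subst hinst
  letI : Fintype (Place (q : ℕ) (cycLevel p 0).field) := Fintype.ofFinite _
  obtain ⟨Nm, hNm⟩ : ∃ Nm : Subgroup (CS {pPrimes p} (cycLevel p 0).field),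
      Nm = normCl {pPrimes p} (cycLevel p 0).field L.field (Level.relGroup h) := ⟨_, rfl⟩
  obtain ⟨X, hX⟩ : ∃ X : CS {pPrimes p} (cycLevel p 0).field,
      X = CS.mk {pPrimes p} (cycLevel p 0).field (primeIdele q {w}) := ⟨_, rfl⟩
  rw [← hNm, ← hX]
  have hdiv : ∀ (σ : GQ) (c : CS {pPrimes p} (cycLevel p 0).field),
      ((cycLevel p 0).proj σ⁻¹ • c) / c ^ (cycloExp p σ) ∈ Nm := by
    intro σ c
    rw [hNm]
    exact div_pow_mem_normCl p F L hL h hcard hconj σ c
  have hqp : (q : ℕ) ≠ p := by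
    intro hqp
    apply hq
    rw [Finset.mem_singleton]
    exact Subtype.ext hqp
  have hXp : X ^ p ∈ Nm := by
    have := pow_card_mem_normCl (S := {pPrimes p}) (K := (cycLevel p 0).field) (L := L.field)
      (H := Level.relGroup h) X
    rw [hcard] at this
    rw [hNm]
    exact this
  have hsmulX : ∀ δ : (cycLevel p 0).G,
      δ • X = CS.mk {pPrimes p} (cycLevel p 0).field (primeIdele q {δ • w}) := by
    intro δ
    rw [hX, CS.smul_mk, smul_primeIdele, Finset.image_singleton]
  have hcop : ∀ m : ℕ, 0 < m → m < p → Nat.Coprime m p := fun m hm hmp =>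
    ((Nat.Prime.coprime_iff_not_dvd hp.out).2
      (fun hd => absurd (Nat.le_of_dvd hm hd) (not_le.2 hmp))).symm
  by_cases hstab : ∃ δ : (cycLevel p 0).G, δ ≠ 1 ∧ δ • w = w
  · -- a nontrivial stabiliser
    obtain ⟨δ, hδ1, hδw⟩ := hstab
    obtain ⟨σ, hσ⟩ := (cycLevel p 0).proj_surjective δ⁻¹
    have h1 := hdiv σ X
    rw [map_inv, hσ, inv_inv, hsmulX, hδw, ← hX] at h1
    obtain ⟨n, hn⟩ : ∃ n : ℕ, n = cycloExp p σ := ⟨_, rfl⟩
    rw [← hn] at h1
    have hn1 : n ≠ 1 := by
      intro hn1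
      have h2 := cycloChar_eq_one_of_cycloExp p (hn ▸ hn1)
      rw [cycloChar_eq_one_iff] at h2
      have h3 : (cycLevel p 0).proj σ = 1 := (QuotientGroup.eq_one_iff _).2 h2
      rw [hσ, inv_eq_one] at h3
      exact hδ1 h3
    have hnp : n < p := hn ▸ cycloExp_lt p σ
    rcases Nat.eq_zero_or_pos n with hn0 | hn0
    · rw [hn0, pow_zero, div_one] at h1
      exact h1
    · have h2 : X ^ (n - 1) ∈ Nm := by
        have h3 := Nm.inv_mem h1
        rw [inv_div] at h3
        have h4 : X ^ n / X = X ^ (n - 1) := by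
          rw [div_eq_iff_eq_mul, ← pow_succ]
          congr 1
          omega
        rwa [h4] at h3
      exact mem_of_pow_mem_of_coprime Nm X (hcop (n - 1) (by omega) (by omega)) h2 hXp
  · -- a prime of degree one: the Jacobi sum relation
    have hfreew : ∀ δ : (cycLevel p 0).G, δ • w = w → δ = 1 := by
      intro δ hδ
      by_contra hne
      exact hstab ⟨δ, hne, hδ⟩
    have hunrK : UnramifiedAt (q : ℕ) (cycLevel p 0).field :=
      Level.unramifiedOutside_of_isS {pPrimes p} (cycLevel p 0) (cycLevel_zero_isS p) q hq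
    have hcardq : Nat.card (𝓞 (cycLevel p 0).field ⧸ (Place.toPrime w).asIdeal) = (q : ℕ) :=
      natCard_quotient_toPrime_of_free (Γ := (cycLevel p 0).G) hunrK w hfreew
    -- the automorphisms `σ_t`
    obtain ⟨gt, hgt⟩ : ∃ gt : ℕ → (cycLevel p 0).G, gt = fun t => (cycLevel p 0).proj (sig p t) :=
      ⟨_, rfl⟩
    obtain ⟨ρ, hρdef⟩ : ∃ ρ : ℕ → (𝓞 (cycLevel p 0).field ≃+* 𝓞 (cycLevel p 0).field),
        ρ = fun t => MulSemiringAction.toRingEquiv (cycLevel p 0).G (𝓞 (cycLevel p 0).field)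
          (gt t) := ⟨_, rfl⟩
    have hρapp : ∀ t (x : 𝓞 (cycLevel p 0).field), ρ t x = gt t • x := by
      intro t x
      rw [hρdef]
      rfl
    have hρ : ∀ t, 0 < t → t < p → ρ t (zetaInt p) = zetaInt p ^ t := by
      intro t ht htp
      rw [hρapp, hgt, proj_smul_zetaInt, cycloExp_sig p ht htp]
    obtain ⟨J, hJ⟩ := exists_span_singleton_eq_prod_comap hp2 (zetaInt_spec p)
      (finrank_cycLevel_zero p) ρ hρ (Place.toPrime w).asIdeal q.2 hqp hcardq
    have hcomap : ∀ t, (Place.toPrime w).asIdeal.comap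
        (ρ t : 𝓞 (cycLevel p 0).field →+* 𝓞 (cycLevel p 0).field) =
        (Place.toPrime ((gt t)⁻¹ • w)).asIdeal := by
      intro t
      ext x
      rw [Ideal.mem_comap]
      change ρ t x ∈ _ ↔ _
      rw [hρapp]
      have := Frob.smul_mem_toPrime_smul_iff (gt t) ((gt t)⁻¹ • w) x
      rw [smul_inv_smul] at this
      exact this
    have hJ' : Ideal.span {J} = ∏ t ∈ Finset.Icc 1 ((p - 1) / 2),
        (Place.toPrime ((gt t)⁻¹ • w)).asIdeal := by
      rw [hJ]
      exact Finset.prod_congr rfl fun t _ => hcomap t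
    have hJ0 : J ≠ 0 := by
      rintro rfl
      rw [Ideal.span_singleton_eq_bot.2 rfl, ← Ideal.zero_eq_bot] at hJ'
      obtain ⟨t, -, ht⟩ := Finset.prod_eq_zero_iff.1 hJ'.symm
      exact (Place.toPrime ((gt t)⁻¹ • w)).ne_bot ht
    obtain ⟨y, hy⟩ := CS.prod_primeIdele_eq_toCS_of_span_eq {pPrimes p} q hq hunrK
      (Finset.Icc 1 ((p - 1) / 2)) (fun t => (gt t)⁻¹ • w) J hJ0 hJ'
    have hfree' : ∀ r : Nat.Primes, r ∈ ({pPrimes p} : Finset Nat.Primes) →
        ∀ w' : Place (r : ℕ) L.field, ∀ g : Level.relGroup h, g • w' = w' → g = 1 := by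
      intro r hr w' g hg
      rw [Finset.mem_singleton] at hr
      subst hr
      exact Subtype.ext (hfree w' g.1 g.2 hg)
    have hT : CS.mk {pPrimes p} (cycLevel p 0).field
        (JS.toFinIdele {pPrimes p} (cycLevel p 0).field y) ∈ Nm := by
      rw [hNm]
      exact toCS_mem_normCl_of_free hfree' y
    rw [← hy] at hT
    -- each factor is `X ^ t` modulo norms
    have hfac : ∀ t ∈ Finset.Icc 1 ((p - 1) / 2),
        X ^ t / CS.mk {pPrimes p} (cycLevel p 0).field (primeIdele q {(gt t)⁻¹ • w}) ∈ Nm := by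
      intro t ht
      rw [Finset.mem_Icc] at ht
      have htp : t < p := by
        have := hp.out.two_le
        omega
      have h1 := hdiv (sig p t) X
      rw [cycloExp_sig p (by omega) htp, map_inv, hsmulX] at h1
      have h2 := Nm.inv_mem h1
      rw [inv_div] at h2
      rw [hgt]
      exact h2
    have hprod : ∏ t ∈ Finset.Icc 1 ((p - 1) / 2), X ^ t ∈ Nm := by
      have h1 := Nm.mul_mem (Subgroup.prod_mem Nm hfac) hT
      rw [← Finset.prod_mul_distrib] at h1
      have h2 : ∀ t ∈ Finset.Icc 1 ((p - 1) / 2),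
          X ^ t / CS.mk {pPrimes p} (cycLevel p 0).field (primeIdele q {(gt t)⁻¹ • w}) *
            CS.mk {pPrimes p} (cycLevel p 0).field (primeIdele q {(gt t)⁻¹ • w}) = X ^ t :=
        fun t _ => div_mul_cancel _ _
      rwa [Finset.prod_congr rfl h2] at h1
    rw [Finset.prod_pow_eq_pow_sum] at hprod
    refine mem_of_pow_mem_of_coprime Nm X ?_ hprod hXp
    apply Nat.Coprime.symm
    rw [Nat.Prime.coprime_iff_not_dvd hp.out]
    intro hd
    apply sum_Icc_half_ne_zero p hp2
    rw [← Nat.cast_sum]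
    exact (ZMod.natCast_eq_zero_iff _ _).2 hd

include F hL hcard hconj in
/-- there is no such level -/
theorem false_of_level (hp2 : p ≠ 2)
    (hfree : ∀ w : Place p L.field, ∀ g ∈ Level.relGroup h, g • w = w → g = 1) : False := by
  letI := Level.algebraOfLE h
  haveI := Level.isGaloisGroup_relGroup h
  have hne := normCl_ne_top (S := {pPrimes p}) (K := (cycLevel p 0).field) (L := L.field)
    (H := Level.relGroup h) hp2 hcard (Finset.singleton_nonempty _)
    (Level.unramifiedOutside_of_isS _ L hL)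
  apply hne
  refine eq_top_of_primeIdele_mem
    (Level.unramifiedOutside_of_isS _ _ (cycLevel_zero_isS p)) _ ?_ ?_
  · intro y
    refine toCS_mem_normCl_of_free ?_ y
    intro r hr w' g hg
    rw [Finset.mem_singleton] at hr
    subst hr
    exact Subtype.ext (hfree w' g.1 g.2 hg)
  · intro q hq inst w
    exact mk_primeIdele_mem_normCl p F L hL h hcard hconj hp2 hfree q hq inst w

end Level

/-- **S14** from the fundamental classes of the `{p}`-tower over `ℚ(ζ_p)`. -/
theorem extVanishingCts_of_pFundamental (h3 : 3 ≤ p)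
    (F : PFundamental p (towerS {pPrimes p} (cycLevel p 0) (cycLevel_zero_isS p))
      (Ctow {pPrimes p} (cycLevel p 0) (cycLevel_zero_isS p))) : ExtVanishingCts p := by
  intro V _ _ _ _ C hadm
  have hp2 : p ≠ 2 := by omega
  rcases splitsGlobally_or_exists hadm (exists_cycloChar_ne_one p h3) with
    hs | ⟨N, hNn, hopen, hle, hidx, hconj, hin, hdec⟩
  · exact hs
  · exfalso
    haveI := hNn
    obtain ⟨L, hL, h, hLN, hcard, hfree⟩ := exists_level_of_kernel p N hopen hle hidx hin hdec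
    refine false_of_level p F L hL h hcard ?_ hp2 hfree
    intro σ τ hτ
    rw [hLN]
    exact hconj σ τ (by rw [cycloChar_ker_eq]; exact hτ)


end

end Fermat.Agent.CFT.S14
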